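/-
Programme T1a (S19), brick G2 MODEL-BC (helper51).  PART 2: one chart, the generic fibre `B[1/π]`.

For an `R`-subalgebra `B` of a field `F` and `π : R`:
* `invPi π B` : the subalgebra `B[1/π] = {x | ∃ m, π ^ m * x ∈ B}` of `F`;
* `exists_common_pow` : common exponents for finite families;
* `invPi_intcl` : if `B` is integrally closed in `F` then so is `B[1/π]`;
* `algebraMap_mem_invPi` : if `K = Frac R` and every nonzero element of `R` is a unit times a power
  of `π`, then `K ⊆ B[1/π]`;
* `mem_of_pow_mul_mem` : iterated `π`-saturation in a valuation ring `Ov ⊇ B`.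
-/
import Mathlib
import Fermat.Agent.RED.PUR.ChartGeneric22

set_option autoImplicit false
set_option linter.unusedSectionVars false

noncomputable section

namespace Fermat.Agent.T1.ModelBC51.InvPi

open Polynomial Fermat.Agent.RED.PUR.ChartGeneric22

variable {R K F : Type*} [CommRing R] [Field K] [Field F] [Algebra R K] [Algebra K F]
  [Algebra R F] [IsScalarTower R K F]

/-- `B[1/π]` inside `F`. -/
def invPi (π : R) (B : Subalgebra R F) : Subalgebra R F where
  carrier := {x | ∃ m : ℕ, algebraMap R F π ^ m * x ∈ B}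
  mul_mem' := by
    rintro x y ⟨k, hk⟩ ⟨j, hj⟩
    refine ⟨k + j, ?_⟩
    have h1 : algebraMap R F π ^ (k + j) * (x * y) =
        (algebraMap R F π ^ k * x) * (algebraMap R F π ^ j * y) := by rw [pow_add]; ring
    rw [h1]
    exact B.mul_mem hk hj
  one_mem' := ⟨0, by simp⟩
  add_mem' := by
    rintro x y ⟨k, hk⟩ ⟨j, hj⟩
    refine ⟨k + j, ?_⟩
    have h1 : algebraMap R F π ^ (k + j) * (x + y) =
        algebraMap R F π ^ j * (algebraMap R F π ^ k * x) +
          algebraMap R F π ^ k * (algebraMap R F π ^ j * y) := by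
      rw [pow_add]; ring
    rw [h1]
    exact B.add_mem (B.mul_mem (B.pow_mem (B.algebraMap_mem π) j) hk)
      (B.mul_mem (B.pow_mem (B.algebraMap_mem π) k) hj)
  zero_mem' := ⟨0, by simp⟩
  algebraMap_mem' := fun r => ⟨0, by simp⟩

theorem mem_invPi {π : R} {B : Subalgebra R F} {x : F} :
    x ∈ invPi π B ↔ ∃ m : ℕ, algebraMap R F π ^ m * x ∈ B := Iff.rfl

theorem le_invPi (π : R) (B : Subalgebra R F) : B ≤ invPi π B :=
  fun x hx => ⟨0, by simpa using hx⟩

theorem pow_mul_mem_of_le {π : R} {B : Subalgebra R F} {x : F} {m m' : ℕ} (h : m ≤ m')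
    (hx : algebraMap R F π ^ m * x ∈ B) : algebraMap R F π ^ m' * x ∈ B := by
  obtain ⟨d, rfl⟩ := Nat.exists_eq_add_of_le h
  rw [pow_add, mul_comm (algebraMap R F π ^ m), mul_assoc]
  exact B.mul_mem (B.pow_mem (B.algebraMap_mem π) d) hx

/-- common exponent for a finite family of elements of `B[1/π]`. -/
theorem exists_common_pow {π : R} {B : Subalgebra R F} {ι : Type*} (s : Finset ι) (c : ι → F)
    (h : ∀ i ∈ s, c i ∈ invPi π B) : ∃ m : ℕ, ∀ i ∈ s, algebraMap R F π ^ m * c i ∈ B := by
  classical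
  induction s using Finset.induction_on with
  | empty => exact ⟨0, fun i hi => absurd hi (Finset.notMem_empty i)⟩
  | insert a s ha ih =>
    obtain ⟨m, hm⟩ := ih fun i hi => h i (Finset.mem_insert_of_mem hi)
    obtain ⟨k, hk⟩ := h a (Finset.mem_insert_self a s)
    refine ⟨m + k, fun i hi => ?_⟩
    rcases Finset.mem_insert.mp hi with rfl | hi
    · exact pow_mul_mem_of_le (Nat.le_add_left k m) hk
    · exact pow_mul_mem_of_le (Nat.le_add_right m k) (hm i hi)

/-- `B[1/π]` is integrally closed in `F` when `B` is. -/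
theorem invPi_intcl {π : R} {B : Subalgebra R F} (intcl : ∀ x : F, IsIntegral B x → x ∈ B)
    (y : F) (hy : IsIntegral (invPi π B) y) : y ∈ invPi π B := by
  rw [isIntegral_subalgebra_iff] at hy
  obtain ⟨P, hP, hcoeff, hPy⟩ := hy
  obtain ⟨m, hm⟩ := exists_common_pow (Finset.range (P.natDegree + 1)) (fun i => P.coeff i)
    (fun i _ => hcoeff i)
  set d : F := algebraMap R F π ^ m with hd
  have hdB : d ∈ B := B.pow_mem (B.algebraMap_mem π) m
  refine ⟨m, intcl _ ?_⟩
  rw [isIntegral_subalgebra_iff]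
  refine ⟨scaleRoots P d, (monic_scaleRoots_iff d).mpr hP, fun i => ?_, ?_⟩
  · rw [coeff_scaleRoots]
    rcases lt_trichotomy i P.natDegree with hi | hi | hi
    · obtain ⟨e, he⟩ := Nat.exists_eq_add_of_lt hi
      have h1 : P.natDegree - i = e + 1 := by omega
      have h2 : P.coeff i * d ^ (e + 1) = (d * P.coeff i) * d ^ e := by rw [pow_succ]; ring
      rw [h1, h2]
      exact B.mul_mem (hm i (Finset.mem_range.mpr (by omega))) (B.pow_mem hdB e)
    · rw [hi, Nat.sub_self, pow_zero, mul_one]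
      have : P.coeff P.natDegree = 1 := hP
      rw [this]
      exact B.one_mem
    · rw [coeff_eq_zero_of_natDegree_lt hi, zero_mul]
      exact B.zero_mem
  · have := scaleRoots_eval₂_eq_zero (RingHom.id F) (r := y) (s := d) (p := P)
      (by rwa [eval₂_id])
    rwa [eval₂_id, RingHom.id_apply] at this

/-- `K ⊆ B[1/π]`. -/
theorem algebraMap_mem_invPi {π : R} (B : Subalgebra R F) [IsFractionRing R K]
    (dvrR : ∀ r : R, r ≠ 0 → ∃ (k : ℕ) (v : Rˣ), r = π ^ k * v) (c : K) :
    algebraMap K F c ∈ invPi π B := by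
  have : Nontrivial R := (algebraMap R K).domain_nontrivial
  obtain ⟨a, b, hb, rfl⟩ := IsFractionRing.div_surjective (A := R) c
  have hb0 : b ≠ 0 := nonZeroDivisors.ne_zero hb
  obtain ⟨k, v, hv⟩ := dvrR b hb0
  refine ⟨k, ?_⟩
  have hbK : algebraMap R K b ≠ 0 := by
    intro h
    exact hb0 ((IsFractionRing.injective R K) (by rw [h, map_zero]))
  have hb' : algebraMap R K b = algebraMap R K (π ^ k) * algebraMap R K (v : R) := by
    rw [hv, map_mul]
  have hπK : algebraMap R K (π ^ k) ≠ 0 := left_ne_zero_of_mul (hb' ▸ hbK)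
  have hvK0 : algebraMap R K (v : R) ≠ 0 := right_ne_zero_of_mul (hb' ▸ hbK)
  have hvv : algebraMap R K ((v : R)) * algebraMap R K ((v⁻¹ : Rˣ) : R) = 1 := by
    rw [← map_mul, Units.mul_inv, map_one]
  have hvinv : algebraMap R K ((v⁻¹ : Rˣ) : R) = (algebraMap R K (v : R))⁻¹ :=
    eq_inv_of_mul_eq_one_right hvv
  have h1 : algebraMap R F π ^ k * algebraMap K F (algebraMap R K a / algebraMap R K b) =
      algebraMap R F (a * ((v⁻¹ : Rˣ) : R)) := by
    rw [IsScalarTower.algebraMap_apply R K F, IsScalarTower.algebraMap_apply R K F, ← map_pow,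
      ← map_mul]
    congr 1
    rw [hb', map_mul _ a, hvinv, map_pow]
    rw [map_pow] at hπK
    field_simp
  rw [h1]
  exact B.algebraMap_mem _

/-- iterated `π`-saturation. -/
theorem mem_of_pow_mul_mem {π : R} {B : Subalgebra R F} {Ov : ValuationSubring F}
    (sat : ∀ b ∈ B, ∀ c ∈ Ov, b = algebraMap R F π * c → c ∈ B) (m : ℕ) {c : F} (hc : c ∈ Ov)
    (hπ : algebraMap R F π ∈ Ov)
    (h : algebraMap R F π ^ m * c ∈ B) : c ∈ B := by
  induction m with
  | zero => simpa using h
  | succ m ih =>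
    apply ih
    refine sat _ h _ (Ov.mul_mem _ _ (Ov.pow_mem hπ m) hc) ?_
    rw [pow_succ]; ring

end Fermat.Agent.T1.ModelBC51.InvPi
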