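/-
Programme T1a (S19), brick G2 MODEL-BC (helper51): base change of the two-chart model along a finite
extension `K ⊆ L` of the constant field.  PART 1 (Mathlib only): the trace argument.

Setting: fields `K ⊆ L` (finite separable), `F ⊆ F'` with `K ⊆ F`, `L ⊆ F'`, and a `K`-basis `ω` of
`L` whose image `bF` in `F'` is an `F`-basis of `F'` (i.e. `F' = L ⊗_K F`).

* `repr_algebraMap` : the `bF`-coordinates of a constant `l ∈ L` are its `ω`-coordinates;
* `trace_algebraMap_eq` : `Tr_{F'/F} l = Tr_{L/K} l` for `l ∈ L`;
* `isIntegral_of_range_le` : integrality only depends on the image of the base ring;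
* `repr_mem_of_isIntegral` : if `A₀ → F` has integrally closed image containing `K`, then the
  `bF`-coordinates of every `x ∈ F'` integral over `A₀` lie in (the image of) `A₀`
  (dual basis for the trace form of `L / K`).
-/
import Mathlib

set_option autoImplicit false
set_option linter.unusedSectionVars false
set_option linter.style.haveILetI false

noncomputable section

namespace Fermat.Agent.T1.ModelBC51.TraceCoord

open Polynomial

/-- integrality only depends on the image of the base ring. -/
theorem isIntegral_of_range_le {S T B : Type*} [CommRing S] [CommRing T] [CommRing B]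
    [Algebra S B] [Algebra T B]
    (h : Set.range (algebraMap S B) ⊆ Set.range (algebraMap T B)) {x : B}
    (hx : IsIntegral S x) : IsIntegral T x := by
  obtain ⟨p, hp, hpx⟩ := hx
  have hl : p.map (algebraMap S B) ∈ lifts (algebraMap T B) := by
    rw [lifts_iff_coeff_lifts]
    intro n
    rw [coeff_map]
    exact h ⟨p.coeff n, rfl⟩
  obtain ⟨q, hq, -, hqm⟩ := lifts_and_natDegree_eq_and_monic hl (hp.map _)
  refine ⟨q, hqm, ?_⟩
  rw [← eval_map, hq, eval_map]
  exact hpx

variable {K L F F' : Type*} [Field K] [Field L] [Field F] [Field F']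
  [Algebra K L] [Algebra K F] [Algebra L F'] [Algebra F F'] [Algebra K F']
  [IsScalarTower K L F'] [IsScalarTower K F F']
  {ι : Type*} [Fintype ι] [DecidableEq ι]
  (ω : Module.Basis ι K L) (bF : Module.Basis ι F F') (hb : ∀ i, bF i = algebraMap L F' (ω i))

include hb in
/-- the `bF`-coordinates of a constant are its `ω`-coordinates. -/
theorem repr_algebraMap (l : L) (j : ι) :
    bF.repr (algebraMap L F' l) j = algebraMap K F (ω.repr l j) := by
  have h1 : algebraMap L F' l = ∑ i, algebraMap K F (ω.repr l i) • bF i := by
    conv_lhs => rw [← ω.sum_repr l]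
    rw [map_sum]
    refine Finset.sum_congr rfl fun i _ => ?_
    rw [hb, Algebra.smul_def, Algebra.smul_def, map_mul, ← IsScalarTower.algebraMap_apply K L F',
      ← IsScalarTower.algebraMap_apply K F F']
  rw [h1, bF.repr_sum_self]

include hb in
/-- `Tr_{F'/F} l = Tr_{L/K} l` for constants `l ∈ L`. -/
theorem trace_algebraMap_eq (l : L) :
    Algebra.trace F F' (algebraMap L F' l) = algebraMap K F (Algebra.trace K L l) := by
  rw [Algebra.trace_eq_matrix_trace bF, Algebra.trace_eq_matrix_trace ω, Matrix.trace,
    Matrix.trace, map_sum]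
  refine Finset.sum_congr rfl fun i _ => ?_
  rw [Matrix.diag_apply, Matrix.diag_apply, Algebra.leftMulMatrix_eq_repr_mul,
    Algebra.leftMulMatrix_eq_repr_mul, hb, ← map_mul, repr_algebraMap ω bF hb]

include hb in
/-- **Coordinates of integral elements.**  If the image of `A₀ → F` is integrally closed in `F` and
contains `K`, and `L / K` is separable, then the coordinates (in the basis `bF` coming from a
`K`-basis of `L`) of every `x ∈ F'` integral over `A₀` lie in the image of `A₀`. -/
theorem repr_mem_of_isIntegral [Algebra.IsSeparable K L]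
    {A₀ : Type*} [CommRing A₀] [Algebra A₀ F] [Algebra A₀ F']
    (htower : ∀ a : A₀, algebraMap A₀ F' a = algebraMap F F' (algebraMap A₀ F a))
    (hcl : ∀ y : F, IsIntegral A₀ y → y ∈ Set.range (algebraMap A₀ F))
    (hK : ∀ c : K, algebraMap K F c ∈ Set.range (algebraMap A₀ F))
    {x : F'} (hx : IsIntegral A₀ x) (j : ι) :
    bF.repr x j ∈ Set.range (algebraMap A₀ F) := by
  haveI : IsScalarTower A₀ F F' := IsScalarTower.of_algebraMap_eq htower
  have : FiniteDimensional K L := ω.finiteDimensional_of_finite
  have : FiniteDimensional F F' := bF.finiteDimensional_of_finite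
  set ω' := (Algebra.traceForm K L).dualBasis (traceForm_nondegenerate K L) ω with hω'
  -- `ω' j` is integral over `A₀`
  have hrange : Set.range (algebraMap K F') ⊆ Set.range (algebraMap A₀ F') := by
    rintro _ ⟨c, rfl⟩
    obtain ⟨a, ha⟩ := hK c
    refine ⟨a, ?_⟩
    rw [IsScalarTower.algebraMap_apply A₀ F F', ha, ← IsScalarTower.algebraMap_apply K F F']
  have hint : IsIntegral A₀ (algebraMap L F' (ω' j)) := by
    have h1 : IsIntegral K (ω' j) := Algebra.IsIntegral.isIntegral _
    have h2 : IsIntegral K (algebraMap L F' (ω' j)) := h1.map (IsScalarTower.toAlgHom K L F')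
    exact isIntegral_of_range_le hrange h2
  have hy : IsIntegral A₀ (x * algebraMap L F' (ω' j)) := hx.mul hint
  have htr := Algebra.isIntegral_trace (R := A₀) (L := F) hy
  -- compute the trace
  have hcomp : Algebra.trace F F' (x * algebraMap L F' (ω' j)) = bF.repr x j := by
    conv_lhs => rw [← bF.sum_repr x]
    rw [Finset.sum_mul, map_sum]
    have : ∀ i, Algebra.trace F F' (bF.repr x i • bF i * algebraMap L F' (ω' j)) =
        bF.repr x i * (if i = j then 1 else 0) := by
      intro i
      rw [smul_mul_assoc, map_smul, smul_eq_mul, hb, ← map_mul, trace_algebraMap_eq ω bF hb]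
      congr 1
      have := LinearMap.BilinForm.apply_dualBasis_left (traceForm_nondegenerate K L) ω j i
      rw [Algebra.traceForm_apply, mul_comm] at this
      rw [← hω'] at this
      rw [this]
      split_ifs <;> simp
    simp only [this]
    simp
  rw [← hcomp]
  exact hcl _ htr

end Fermat.Agent.T1.ModelBC51.TraceCoord
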