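/-
Programme T1a (S19), brick G2 MODEL-BC (helper51).  PART 3: the abstract base change theorem.

Two chart pairs `(R, K, F, π, B, Ov)` and `(R', L, F', π', B', Ov')` (in the application:
`R = A ∩ K ⊆ R' = A ∩ L` discrete valuation rings of number fields `K ⊆ L`, `F = K · F_M ⊆
F' = L · F_M`, `B`, `B'` the charts = integral closures of `R[t]`, `R'[t]`, `Ov`, `Ov'` the Gauss
valuation rings), related by a `BCData` (ring homs `R → R'`, `K → L`, `F → F'`; a `K`-basis `ω` of
`L` which is an `F`-basis of `F'`; a family `θ` in `R'` spanning `R' / π' R'` over `R`, whose residues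
are linearly independent over the residue field of `Ov` inside the residue field of `Ov'`).

MAIN RESULT (`mem_span_of_mem`, `eq_span`): **`B' = R' · B`** — every element of `B'` is an
`R'`-linear combination of elements of (the image of) `B`.  `L / K` may be ramified at `π`, and `R'`
need not be finite over `R`.

Proof: (1) generic fibre: the `ω`-coordinates of `x ∈ B'` lie in `B[1/π]` (trace form of `L / K`,
`TraceCoord.repr_mem_of_isIntegral`), so `r • x ∈ R' · B` for some `r ≠ 0` in `R'`;
(2) `R' · B` is `π'`-saturated in `Ov'` (`span_sat`: approximate the coefficients modulo `π'` by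
`R`-combinations of the `θ i`, use the linear disjointness `ld_res` and the saturation of `B`);
(3) conclude by induction on the `π'`-adic valuation of `r`.
-/
import Mathlib
import Fermat.Agent.RED.CORE.CoreIface24
import Fermat.Agent.T1.ModelBC51.TraceCoord
import Fermat.Agent.T1.ModelBC51.InvPi

set_option autoImplicit false
set_option linter.unusedSectionVars false
set_option linter.style.haveILetI false

noncomputable section

namespace Fermat.Agent.T1.ModelBC51.Abstract

open Polynomial Fermat.Agent.RED.CORE.CoreIface24 Fermat.Agent.RED.PUR.ChartGeneric22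
open Fermat.Agent.T1.ModelBC51.InvPi Fermat.Agent.T1.ModelBC51.TraceCoord

variable {R K F : Type*} [CommRing R] [Field K] [Field F] [Algebra R K] [Algebra K F]
  [Algebra R F] [IsScalarTower R K F]
variable {R' L F' : Type*} [CommRing R'] [Field L] [Field F'] [Algebra R' L] [Algebra L F']
  [Algebra R' F'] [IsScalarTower R' L F']

variable (K L) in
/-- **Base change data** between `(R, K, F, π, Ov)` and `(R', L, F', π', Ov')`. -/
structure BCData (π : R) (π' : R') (Ov : ValuationSubring F) (Ov' : ValuationSubring F') where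
  /-- the three inclusions -/
  iR : R →+* R'
  iK : K →+* L
  iF : F →+* F'
  hRK : ∀ r : R, algebraMap R' L (iR r) = iK (algebraMap R K r)
  hKF : ∀ c : K, algebraMap L F' (iK c) = iF (algebraMap K F c)
  /-- a `K`-basis of `L` which is an `F`-basis of `F'` -/
  n : ℕ
  ω : Fin n → L
  ω_span : ∀ l : L, ∃ c : Fin n → K, l = ∑ i, iK (c i) * ω i
  ω_indep : ∀ a : Fin n → F, ∑ i, iF (a i) * algebraMap L F' (ω i) = 0 → ∀ i, a i = 0
  ω_spanF : ∀ x : F', ∃ a : Fin n → F, x = ∑ i, iF (a i) * algebraMap L F' (ω i)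
  /-- a family of elements of `R'` spanning `R' / π'` over `R`, linearly disjoint from the residue
  field of `Ov` -/
  f : ℕ
  θ : Fin f → R'
  θ_span : ∀ r : R', ∃ (c : Fin f → R) (r' : R'), r = ∑ i, iR (c i) * θ i + π' * r'
  pi_dvd : ∃ u : R', iR π = π' * u
  ld_res : ∀ y : Fin f → F, (∀ i, y i ∈ Ov) →
    (∃ z ∈ Ov', ∑ i, algebraMap R' F' (θ i) * iF (y i) = algebraMap R' F' π' * z) →
    ∀ i, ∃ z ∈ Ov, y i = algebraMap R F π * z

namespace BCData

variable {π : R} {π' : R'} {Ov : ValuationSubring F} {Ov' : ValuationSubring F'}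
  (D : BCData K L π π' Ov Ov')

theorem hRF (r : R) : algebraMap R' F' (D.iR r) = D.iF (algebraMap R F r) := by
  rw [IsScalarTower.algebraMap_apply R' L F', D.hRK, D.hKF, ← IsScalarTower.algebraMap_apply R K F]

/-- the images of the `ω i` in `F'`. -/
def b (i : Fin D.n) : F' := algebraMap L F' (D.ω i)

/-- `F'` as an algebra over `B[1/π]`. -/
@[reducible] def algAF' (B : Subalgebra R F) : Algebra ↥(invPi π B) F' :=
  (D.iF.comp (algebraMap ↥(invPi π B) F)).toAlgebra

/-- integrality over `B[1/π]` (through `F → F'`). -/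
def IntOverA (B : Subalgebra R F) (x : F') : Prop :=
  @IsIntegral ↥(invPi π B) F' _ _ (D.algAF' B) x

theorem intOverA_map (B : Subalgebra R F) {a : F} (ha : a ∈ invPi π B) : D.IntOverA B (D.iF a) := by
  letI := D.algAF' B
  exact isIntegral_algebraMap (R := ↥(invPi π B)) (x := (⟨a, ha⟩ : ↥(invPi π B)))

theorem intOverA_add (B : Subalgebra R F) {x y : F'} (hx : D.IntOverA B x) (hy : D.IntOverA B y) :
    D.IntOverA B (x + y) := by
  letI := D.algAF' B
  exact IsIntegral.add hx hy

theorem intOverA_mul (B : Subalgebra R F) {x y : F'} (hx : D.IntOverA B x) (hy : D.IntOverA B y) :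
    D.IntOverA B (x * y) := by
  letI := D.algAF' B
  exact IsIntegral.mul hx hy

/-- transitivity: a root of a monic polynomial with coefficients integral over `B[1/π]` is integral
over `B[1/π]`. -/
theorem intOverA_of_root (B : Subalgebra R F) {x : F'} (P : F'[X]) (hP : P.Monic)
    (hcoeff : ∀ i, D.IntOverA B (P.coeff i)) (hx : P.eval x = 0) : D.IntOverA B x := by
  letI := D.algAF' B
  have h1 : IsIntegral (integralClosure ↥(invPi π B) F') x := by
    rw [isIntegral_subalgebra_iff]
    exact ⟨P, hP, hcoeff, hx⟩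
  exact isIntegral_trans x h1

/-- the local algebra structures used for the trace argument. -/
@[reducible] def algKL : Algebra K L := D.iK.toAlgebra

/-- `F'` as an `F`-algebra. -/
@[reducible] def algFF' : Algebra F F' := D.iF.toAlgebra

theorem ω_indepK (c : Fin D.n → K) (h : ∑ i, D.iK (c i) * D.ω i = 0) : ∀ i, c i = 0 := by
  have h1 := D.ω_indep (fun i => algebraMap K F (c i)) (by
    have := congrArg (algebraMap L F') h
    rw [map_sum, map_zero] at this
    simp only [map_mul, D.hKF] at this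
    exact this)
  intro i
  exact (algebraMap K F).injective (by rw [h1 i, map_zero])

/-- `ω` as a `K`-basis of `L` and its image as an `F`-basis of `F'`. -/
theorem exists_bases :
    letI := D.algKL
    letI := D.algFF'
    ∃ (ωK : Module.Basis (Fin D.n) K L) (bF : Module.Basis (Fin D.n) F F'),
      (∀ i, ωK i = D.ω i) ∧ (∀ i, bF i = algebraMap L F' (D.ω i)) := by
  letI := D.algKL
  letI := D.algFF'
  have hsK : ∀ (c : K) (l : L), c • l = D.iK c * l := fun c l => by
    rw [Algebra.smul_def]; rfl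
  have hsF : ∀ (a : F) (x : F'), a • x = D.iF a * x := fun a x => by
    rw [Algebra.smul_def]; rfl
  have hliK : LinearIndependent K D.ω := by
    rw [Fintype.linearIndependent_iff]
    intro g hg i
    simp only [hsK] at hg
    exact D.ω_indepK g hg i
  have hspK : ⊤ ≤ Submodule.span K (Set.range D.ω) := by
    intro l _
    obtain ⟨c, hc⟩ := D.ω_span l
    rw [hc]
    refine Submodule.sum_mem _ fun i _ => ?_
    rw [← hsK]
    exact Submodule.smul_mem _ _ (Submodule.subset_span ⟨i, rfl⟩)
  have hliF : LinearIndependent F (fun i => algebraMap L F' (D.ω i)) := by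
    rw [Fintype.linearIndependent_iff]
    intro g hg i
    simp only [hsF] at hg
    exact D.ω_indep g hg i
  have hspF : ⊤ ≤ Submodule.span F (Set.range fun i => algebraMap L F' (D.ω i)) := by
    intro x _
    obtain ⟨a, ha⟩ := D.ω_spanF x
    rw [ha]
    refine Submodule.sum_mem _ fun i _ => ?_
    rw [← hsF]
    exact Submodule.smul_mem _ _ (Submodule.subset_span ⟨i, rfl⟩)
  refine ⟨Module.Basis.mk hliK hspK, Module.Basis.mk hliF hspF, fun i => ?_, fun i => ?_⟩
  · rw [Module.Basis.mk_apply]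
  · rw [Module.Basis.mk_apply]

/-- constants of `L` are integral over `B[1/π]`. -/
theorem intOverA_const (B : Subalgebra R F) (hKA : ∀ c : K, algebraMap K F c ∈ invPi π B)
    (l : L) : D.IntOverA B (algebraMap L F' l) := by
  letI := D.algAF' B
  letI : Algebra K L := D.algKL
  letI : Algebra F F' := D.algFF'
  letI : Algebra K F' := ((algebraMap L F').comp D.iK).toAlgebra
  haveI : IsScalarTower K L F' := IsScalarTower.of_algebraMap_eq (fun _ => rfl)
  obtain ⟨ωK, -, -, -⟩ := D.exists_bases
  haveI : FiniteDimensional K L := ωK.finiteDimensional_of_finite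
  have h1 : IsIntegral K l := Algebra.IsIntegral.isIntegral _
  have h2 : IsIntegral K (algebraMap L F' l) := h1.map (IsScalarTower.toAlgHom K L F')
  refine isIntegral_of_range_le ?_ h2
  rintro _ ⟨c, rfl⟩
  refine ⟨⟨algebraMap K F c, hKA c⟩, ?_⟩
  exact (D.hKF c).symm

/-- **Step 1 (generic fibre).**  The `ω`-coordinates of an element integral over `B[1/π]` lie in
`B[1/π]`. -/
theorem coords_mem_invPi [CharZero K] (B : Subalgebra R F)
    (intcl : ∀ x : F, IsIntegral B x → x ∈ B)
    (hKA : ∀ c : K, algebraMap K F c ∈ invPi π B) {x : F'} (hx : D.IntOverA B x)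
    (a : Fin D.n → F) (hxa : x = ∑ i, D.iF (a i) * algebraMap L F' (D.ω i)) (j : Fin D.n) :
    a j ∈ invPi π B := by
  letI := D.algAF' B
  letI : Algebra K L := D.algKL
  letI : Algebra F F' := D.algFF'
  letI : Algebra K F' := ((algebraMap L F').comp D.iK).toAlgebra
  haveI : IsScalarTower K L F' := IsScalarTower.of_algebraMap_eq (fun _ => rfl)
  haveI : IsScalarTower K F F' := IsScalarTower.of_algebraMap_eq (fun c => D.hKF c)
  obtain ⟨ωK, bF, hωK, hbF⟩ := D.exists_bases
  haveI : FiniteDimensional K L := ωK.finiteDimensional_of_finite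
  have hb : ∀ i, bF i = algebraMap L F' (ωK i) := fun i => by rw [hbF, hωK]
  have hcl : ∀ y : F, IsIntegral ↥(invPi π B) y → y ∈ Set.range (algebraMap ↥(invPi π B) F) := by
    intro y hy
    exact ⟨⟨y, invPi_intcl intcl y hy⟩, rfl⟩
  have hK : ∀ c : K, algebraMap K F c ∈ Set.range (algebraMap ↥(invPi π B) F) :=
    fun c => ⟨⟨_, hKA c⟩, rfl⟩
  have key := repr_mem_of_isIntegral (A₀ := ↥(invPi π B)) ωK bF hb (fun _ => rfl) hcl hK hx j
  have hrepr : bF.repr x j = a j := by
    have : x = ∑ i, a i • bF i := by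
      rw [hxa]
      refine Finset.sum_congr rfl fun i _ => ?_
      rw [hbF, Algebra.smul_def]; rfl
    rw [this, bF.repr_sum_self]
  rw [hrepr] at key
  obtain ⟨⟨y, hy⟩, rfl⟩ := key
  exact hy

/-- the `R'`-span of the image of a subalgebra `B` of `F`. -/
def spanOf (B : Subalgebra R F) : Submodule R' F' :=
  Submodule.span R' (D.iF '' (B : Set F))

theorem map_mem_spanOf (B : Subalgebra R F) {c : F} (hc : c ∈ B) : D.iF c ∈ D.spanOf B :=
  Submodule.subset_span ⟨c, hc, rfl⟩

/-- **A chart pair**: a chart `B` over `R` and a chart `B'` over `R'`. -/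
structure ChartPair (B : Subalgebra R F) (B' : Subalgebra R' F') : Prop where
  intcl : ∀ x : F, IsIntegral B x → x ∈ B
  le_Ov : ∀ x ∈ B, x ∈ Ov
  sat : ∀ b ∈ B, ∀ c ∈ Ov, b = algebraMap R F π * c → c ∈ B
  le_Ov' : ∀ x ∈ B', x ∈ Ov'
  int' : ∀ x ∈ B', D.IntOverA B x
  map_mem : ∀ x ∈ B, D.iF x ∈ B'

namespace ChartPair

variable {D} {B : Subalgebra R F} {B' : Subalgebra R' F'} (P : D.ChartPair B B')

include P in
theorem spanOf_le : D.spanOf B ≤ Subalgebra.toSubmodule B' := by
  refine Submodule.span_le.mpr ?_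
  rintro _ ⟨c, hc, rfl⟩
  exact P.map_mem c hc

include P in
theorem spanOf_le_Ov' {y : F'} (hy : y ∈ D.spanOf B) : y ∈ Ov' :=
  P.le_Ov' y (P.spanOf_le hy)

include P in
/-- **Step 1.**  A nonzero multiple of every element of `B'` lies in `R' · B`. -/
theorem exists_smul_mem_spanOf [CharZero K] [IsFractionRing R K] [IsFractionRing R' L]
    (dvrR : ∀ r : R, r ≠ 0 → ∃ (k : ℕ) (v : Rˣ), r = π ^ k * v)
    (pi_ne : algebraMap R F π ≠ 0) {x : F'} (hx : x ∈ B') :
    ∃ r : R', r ≠ 0 ∧ r • x ∈ D.spanOf B := by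
  classical
  have hKA : ∀ c : K, algebraMap K F c ∈ invPi π B := algebraMap_mem_invPi B dvrR
  obtain ⟨a, ha⟩ := D.ω_spanF x
  have hcoord : ∀ j, a j ∈ invPi π B :=
    D.coords_mem_invPi B P.intcl hKA (P.int' x hx) a ha
  obtain ⟨m, hm⟩ := exists_common_pow Finset.univ a (fun i _ => hcoord i)
  obtain ⟨s, hs⟩ := IsLocalization.exist_integer_multiples (nonZeroDivisors R')
    (Finset.univ : Finset (Fin D.n)) D.ω
  choose u hu using fun i => hs i (Finset.mem_univ i)
  -- `hu i : algebraMap R' L (u i) = s • ω i`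
  have hinjL : Function.Injective (algebraMap R' L) := IsFractionRing.injective R' L
  have hπ' : D.iR π ≠ 0 := by
    intro h
    apply pi_ne
    have := D.hRF π
    rw [h, map_zero] at this
    exact (map_eq_zero D.iF).mp this.symm
  have hs0 : (s : R') ≠ 0 := by
    haveI : Nontrivial R' := (algebraMap R' L).domain_nontrivial
    exact nonZeroDivisors.ne_zero s.2
  refine ⟨(s : R') * D.iR π ^ m, ?_, ?_⟩
  · intro h
    have h1 := congrArg (algebraMap R' L) h
    rw [map_mul, map_pow, map_zero] at h1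
    rcases mul_eq_zero.mp h1 with h2 | h2
    · exact hs0 (hinjL (by rw [h2, map_zero]))
    · have h3 : algebraMap R' L (D.iR π) ≠ 0 := fun h3 => hπ' (hinjL (by rw [h3, map_zero]))
      exact pow_ne_zero m h3 h2
  · have hexp : ((s : R') * D.iR π ^ m) • x =
        ∑ i, u i • D.iF (algebraMap R F π ^ m * a i) := by
      rw [Algebra.smul_def, ha, Finset.mul_sum]
      refine Finset.sum_congr rfl fun i _ => ?_
      have h1 : algebraMap R' F' (u i) = algebraMap R' F' (s : R') * algebraMap L F' (D.ω i) := by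
        rw [IsScalarTower.algebraMap_apply R' L F', hu i, Algebra.smul_def, map_mul,
          ← IsScalarTower.algebraMap_apply R' L F']
      rw [Algebra.smul_def, h1, map_mul, map_pow, map_mul, map_pow, D.hRF]
      ring
    rw [hexp]
    exact Submodule.sum_mem _ fun i _ =>
      Submodule.smul_mem _ _ (D.map_mem_spanOf B (hm i (Finset.mem_univ i)))

include P in
/-- **Step 2.**  `R' · B` is `π'`-saturated in `Ov'`. -/
theorem spanOf_sat (pi'_ne : algebraMap R' F' π' ≠ 0) {y z : F'} (hy : y ∈ D.spanOf B)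
    (hz : z ∈ Ov') (hyz : y = algebraMap R' F' π' * z) : z ∈ D.spanOf B := by
  classical
  obtain ⟨N, r, g, rfl⟩ := Submodule.mem_span_set'.mp hy
  choose c hcB hc using fun k => (g k).2
  choose γ r' hγ using fun k => D.θ_span (r k)
  obtain ⟨u, hu⟩ := D.pi_dvd
  -- the `θ`-components
  set yθ : Fin D.f → F := fun i => ∑ k, algebraMap R F (γ k i) * c k with hyθ
  set y' : F' := ∑ k, r' k • D.iF (c k) with hy'
  have hyθB : ∀ i, yθ i ∈ B := fun i =>
    B.sum_mem fun k _ => B.mul_mem (B.algebraMap_mem _) (hcB k)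
  have hy'C : y' ∈ D.spanOf B :=
    Submodule.sum_mem _ fun k _ => Submodule.smul_mem _ _ (D.map_mem_spanOf B (hcB k))
  have hdecomp : ∑ k, r k • ((g k : ↥(D.iF '' (B : Set F))) : F') =
      ∑ i, algebraMap R' F' (D.θ i) * D.iF (yθ i) + algebraMap R' F' π' * y' := by
    have h1 : ∀ k, r k • ((g k : ↥(D.iF '' (B : Set F))) : F') =
        ∑ i, algebraMap R' F' (D.θ i) * D.iF (algebraMap R F (γ k i) * c k) +
          algebraMap R' F' π' * (r' k • D.iF (c k)) := by
      intro k
      rw [← hc k, Algebra.smul_def, Algebra.smul_def]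
      conv_lhs => rw [hγ k]
      rw [map_add, map_sum, add_mul, Finset.sum_mul, map_mul]
      congr 1
      · refine Finset.sum_congr rfl fun i _ => ?_
        rw [map_mul, map_mul, D.hRF]
        ring
      · ring
    simp only [h1, Finset.sum_add_distrib]
    congr 1
    · rw [Finset.sum_comm]
      refine Finset.sum_congr rfl fun i _ => ?_
      rw [hyθ, map_sum, Finset.mul_sum]
    · rw [hy', Finset.mul_sum]
  -- linear disjointness on the special fibre
  have hz' : z - y' ∈ Ov' := sub_mem hz (P.spanOf_le_Ov' hy'C)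
  have hld := D.ld_res yθ (fun i => P.le_Ov _ (hyθB i)) ⟨z - y', hz', by
    rw [mul_sub, ← hyz, hdecomp]; ring⟩
  choose zθ hzθOv hzθ using hld
  have hzθB : ∀ i, zθ i ∈ B := fun i => P.sat _ (hyθB i) _ (hzθOv i) (hzθ i)
  -- conclusion
  have hsum : ∑ i, algebraMap R' F' (D.θ i) * D.iF (yθ i) =
      algebraMap R' F' π' * ∑ i, (D.θ i * u) • D.iF (zθ i) := by
    rw [Finset.mul_sum]
    refine Finset.sum_congr rfl fun i _ => ?_
    rw [hzθ i, map_mul, ← D.hRF, hu, Algebra.smul_def, map_mul, map_mul]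
    ring
  have hfinal : algebraMap R' F' π' * z =
      algebraMap R' F' π' * (∑ i, (D.θ i * u) • D.iF (zθ i) + y') := by
    rw [← hyz, hdecomp, hsum, mul_add]
  rw [mul_left_cancel₀ pi'_ne hfinal]
  exact Submodule.add_mem _
    (Submodule.sum_mem _ fun i _ => Submodule.smul_mem _ _ (D.map_mem_spanOf B (hzθB i))) hy'C

include P in
/-- iterated saturation. -/
theorem spanOf_sat_pow (pi'_ne : algebraMap R' F' π' ≠ 0) (hπ'Ov : algebraMap R' F' π' ∈ Ov')
    (k : ℕ) {w : F'} (hw : w ∈ Ov') (h : algebraMap R' F' π' ^ k * w ∈ D.spanOf B) :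
    w ∈ D.spanOf B := by
  induction k with
  | zero => simpa using h
  | succ k ih =>
    apply ih
    refine P.spanOf_sat pi'_ne h (Ov'.mul_mem _ _ (Ov'.pow_mem hπ'Ov k) hw) ?_
    rw [pow_succ]; ring

include P in
/-- **Main theorem: `B' ⊆ R' · B`.** -/
theorem mem_spanOf_of_mem [CharZero K] [IsFractionRing R K] [IsFractionRing R' L]
    (dvrR : ∀ r : R, r ≠ 0 → ∃ (k : ℕ) (v : Rˣ), r = π ^ k * v)
    (dvrR' : ∀ r : R', r ≠ 0 → ∃ (k : ℕ) (v : R'ˣ), r = π' ^ k * v)
    (pi_ne : algebraMap R F π ≠ 0) (pi'_ne : algebraMap R' F' π' ≠ 0) {x : F'} (hx : x ∈ B') :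
    x ∈ D.spanOf B := by
  obtain ⟨r, hr0, hrx⟩ := P.exists_smul_mem_spanOf dvrR pi_ne hx
  obtain ⟨k, v, rfl⟩ := dvrR' r hr0
  have hπ'Ov : algebraMap R' F' π' ∈ Ov' := P.le_Ov' _ (B'.algebraMap_mem π')
  have hvx : (v : R') • x ∈ Ov' :=
    P.le_Ov' _ (B'.smul_mem hx _)
  have h1 : algebraMap R' F' π' ^ k * ((v : R') • x) ∈ D.spanOf B := by
    have : algebraMap R' F' π' ^ k * ((v : R') • x) = (π' ^ k * (v : R')) • x := by
      rw [Algebra.smul_def, Algebra.smul_def, map_mul, map_pow]; ring
    rw [this]; exact hrx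
  have h2 := P.spanOf_sat_pow pi'_ne hπ'Ov k hvx h1
  have h3 : x = ((v⁻¹ : R'ˣ) : R') • ((v : R') • x) := by
    rw [smul_smul, Units.inv_mul, one_smul]
  rw [h3]
  exact Submodule.smul_mem _ _ h2

include P in
/-- **`B' = R' · B`.** -/
theorem eq_spanOf [CharZero K] [IsFractionRing R K] [IsFractionRing R' L]
    (dvrR : ∀ r : R, r ≠ 0 → ∃ (k : ℕ) (v : Rˣ), r = π ^ k * v)
    (dvrR' : ∀ r : R', r ≠ 0 → ∃ (k : ℕ) (v : R'ˣ), r = π' ^ k * v)
    (pi_ne : algebraMap R F π ≠ 0) (pi'_ne : algebraMap R' F' π' ≠ 0) :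
    Subalgebra.toSubmodule B' = D.spanOf B :=
  le_antisymm (fun _ hx => P.mem_spanOf_of_mem dvrR dvrR' pi_ne pi'_ne hx) P.spanOf_le

end ChartPair

end BCData

end Fermat.Agent.T1.ModelBC51.Abstract
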