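/-
Programme T1a (S19), brick G2 MODEL-BC (helper51).  PART 6: the base change isomorphism.

For base change data `D : BCData K L π π' Ov Ov'` (`Abstract.lean`), an `R`-subalgebra `B ⊆ F` and an
`R'`-subalgebra `B' ⊆ F'` with `D.iF B ⊆ B'`, the multiplication map
`mu : R' ⊗[R] ↥B →ₐ[R'] ↥B'`, `r ⊗ b ↦ r • D.iF b`, is
* injective (`mu_injective`: `B` is flat over the discrete valuation ring `R`, and `L ⊗[R] B → F'` is
  injective because the `K`-basis `ω` of `L` is `F`-linearly independent in `F'`),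
* surjective as soon as `B' ⊆ R' · B` (`mu_surjective`), which is the main theorem of `Abstract.lean`
  for chart pairs.
Hence `chartEquiv : R' ⊗[R] ↥B ≃ₐ[R'] ↥B'`.
-/
import Mathlib
import Fermat.Agent.T1.ModelBC51.Abstract

set_option autoImplicit false
set_option linter.unusedSectionVars false
set_option linter.style.haveILetI false

noncomputable section

namespace Fermat.Agent.T1.ModelBC51.Equiv

open TensorProduct Fermat.Agent.T1.ModelBC51.Abstract

variable {R K F : Type*} [CommRing R] [Field K] [Field F] [Algebra R K] [Algebra K F]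
  [Algebra R F] [IsScalarTower R K F]
variable {R' L F' : Type*} [CommRing R'] [Field L] [Field F'] [Algebra R' L] [Algebra L F']
  [Algebra R' F'] [IsScalarTower R' L F']

/-! ### discrete valuation rings in the `dvrR` form -/

section PID

variable {π : R}

/-- a domain in which every nonzero element is a unit times a power of `π` is a principal ideal
ring. -/
theorem isPrincipalIdealRing_of_dvr [IsDomain R]
    (dvrR : ∀ r : R, r ≠ 0 → ∃ (k : ℕ) (v : Rˣ), r = π ^ k * v) : IsPrincipalIdealRing R := by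
  classical
  refine ⟨fun I => ?_⟩
  by_cases hI : I = ⊥
  · subst hI
    exact bot_isPrincipal
  · have hpow : ∀ r ∈ I, r ≠ 0 → ∀ (k : ℕ) (v : Rˣ), r = π ^ k * v → π ^ k ∈ I := by
      intro r hr _ k v hrk
      have : π ^ k = r * ((v⁻¹ : Rˣ) : R) := by
        rw [hrk, mul_assoc, Units.mul_inv, mul_one]
      rw [this]
      exact I.mul_mem_right _ hr
    have hex : ∃ k : ℕ, π ^ k ∈ I := by
      obtain ⟨r, hr, hr0⟩ := Submodule.exists_mem_ne_zero_of_ne_bot hI
      obtain ⟨k, v, hrk⟩ := dvrR r hr0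
      exact ⟨k, hpow r hr hr0 k v hrk⟩
    refine ⟨⟨π ^ Nat.find hex, ?_⟩⟩
    apply le_antisymm
    · intro r hr
      rcases eq_or_ne r 0 with rfl | hr0
      · exact zero_mem _
      obtain ⟨k, v, hrk⟩ := dvrR r hr0
      have hle := Nat.find_min' hex (hpow r hr hr0 k v hrk)
      rw [Ideal.submodule_span_eq, Ideal.mem_span_singleton, hrk]
      exact Dvd.dvd.mul_right (pow_dvd_pow π hle) _
    · rw [Ideal.submodule_span_eq, Ideal.span_singleton_le_iff_mem]
      exact Nat.find_spec hex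

/-- subalgebras of a field extension of `Frac R` are flat over the principal ideal domain `R`. -/
theorem flat_subalgebra [IsDomain R] [IsPrincipalIdealRing R]
    (hinj : Function.Injective (algebraMap R F)) (B : Subalgebra R F) : Module.Flat R ↥B := by
  rw [Module.Flat.flat_iff_torsion_eq_bot_of_isBezout, eq_bot_iff]
  rintro x ⟨a, ha⟩
  rw [Submodule.mem_bot]
  have h1 : algebraMap R F (a : R) * (x : F) = 0 := by
    have h0 : ((a : R) • x : ↥B) = 0 := ha
    have := congrArg (fun y : ↥B => (y : F)) h0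
    rw [← Algebra.smul_def]
    exact this
  have ha0 : algebraMap R F (a : R) ≠ 0 := by
    intro h
    exact nonZeroDivisors.ne_zero a.2 (hinj (by rw [h, map_zero]))
  exact Subtype.ext ((mul_eq_zero.mp h1).resolve_left ha0)

/-- clearing denominators with a power of `π`. -/
theorem exists_pow_mul_eq [IsFractionRing R K]
    (dvrR : ∀ r : R, r ≠ 0 → ∃ (k : ℕ) (v : Rˣ), r = π ^ k * v) (c : K) :
    ∃ (k : ℕ) (a : R), algebraMap R K π ^ k * c = algebraMap R K a := by
  haveI : Nontrivial R := (IsFractionRing.nontrivial_iff_nontrivial R K).mpr inferInstance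
  obtain ⟨a, s, hs, rfl⟩ := IsFractionRing.div_surjective (A := R) c
  have hs0 : s ≠ 0 := nonZeroDivisors.ne_zero hs
  obtain ⟨k, v, rfl⟩ := dvrR s hs0
  refine ⟨k, a * ((v⁻¹ : Rˣ) : R), ?_⟩
  have hinj := IsFractionRing.injective R K
  have hπk : algebraMap R K π ^ k ≠ 0 := by
    rw [← map_pow]
    intro h
    apply hs0
    have : π ^ k = 0 := hinj (by rw [h, map_zero])
    rw [this, zero_mul]
  have hv : algebraMap R K (v : R) * algebraMap R K ((v⁻¹ : Rˣ) : R) = 1 := by
    rw [← map_mul, Units.mul_inv, map_one]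
  have hv0 : algebraMap R K (v : R) ≠ 0 := left_ne_zero_of_mul_eq_one hv
  rw [map_mul, map_mul, map_pow]
  field_simp
  rw [mul_assoc, hv, mul_one]

/-- clearing the denominators of a finite family. -/
theorem exists_common_pow_mul_eq [IsFractionRing R K]
    (dvrR : ∀ r : R, r ≠ 0 → ∃ (k : ℕ) (v : Rˣ), r = π ^ k * v) {n : ℕ} (c : Fin n → K) :
    ∃ (m : ℕ) (a : Fin n → R), ∀ i, algebraMap R K π ^ m * c i = algebraMap R K (a i) := by
  choose k a hka using fun i => exists_pow_mul_eq (K := K) dvrR (c i)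
  refine ⟨∑ i, k i, fun i => π ^ (∑ j, k j - k i) * a i, fun i => ?_⟩
  have hle : k i ≤ ∑ j, k j := Finset.single_le_sum (fun _ _ => Nat.zero_le _) (Finset.mem_univ i)
  rw [map_mul, map_pow, ← hka i, ← mul_assoc, ← pow_add, Nat.sub_add_cancel hle]

end PID

/-! ### the multiplication map -/

section Map

variable {π : R} {π' : R'} {Ov : ValuationSubring F} {Ov' : ValuationSubring F'}
  (D : BCData K L π π' Ov Ov') [Algebra R R'] (halg : ∀ r : R, algebraMap R R' r = D.iR r)
  {B : Subalgebra R F} {B' : Subalgebra R' F'} (hmap : ∀ x ∈ B, D.iF x ∈ B')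

/-- **the multiplication map** `R' ⊗[R] ↥B →ₐ[R'] ↥B'`, `r ⊗ b ↦ r • D.iF b`. -/
def mu : R' ⊗[R] ↥B →ₐ[R'] ↥B' :=
  letI : Algebra R ↥B' := ((algebraMap R' ↥B').comp (algebraMap R R')).toAlgebra
  haveI : IsScalarTower R R' ↥B' := IsScalarTower.of_algebraMap_eq (fun _ => rfl)
  Algebra.TensorProduct.lift (Algebra.ofId R' ↥B')
    ({ toFun := fun b => ⟨D.iF (b : F), hmap _ b.2⟩
       map_one' := Subtype.ext (map_one D.iF)
       map_mul' := fun x y => Subtype.ext (map_mul D.iF _ _)
       map_zero' := Subtype.ext (map_zero D.iF)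
       map_add' := fun x y => Subtype.ext (map_add D.iF _ _)
       commutes' := fun r => Subtype.ext (by
         show D.iF (algebraMap R F r) = algebraMap R' F' (algebraMap R R' r)
         rw [halg, D.hRF]) } : ↥B →ₐ[R] ↥B')
    (fun _ _ => Commute.all _ _)

theorem coe_mu_tmul (r : R') (b : ↥B) :
    ((mu D halg hmap (r ⊗ₜ[R] b) : ↥B') : F') = algebraMap R' F' r * D.iF (b : F) := rfl

include halg in
/-- **surjectivity** from `B' ⊆ R' · B`. -/
theorem mu_surjective (hspan : ∀ x ∈ B', x ∈ D.spanOf B) :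
    Function.Surjective (mu D halg hmap) := by
  rintro ⟨x, hx⟩
  have h := hspan x hx
  suffices H : ∀ y ∈ D.spanOf B, ∃ z : R' ⊗[R] ↥B, ((mu D halg hmap z : ↥B') : F') = y by
    obtain ⟨z, hz⟩ := H x h
    exact ⟨z, Subtype.ext hz⟩
  intro y hy
  induction hy using Submodule.span_induction with
  | mem y hy =>
    obtain ⟨c, hc, rfl⟩ := hy
    refine ⟨1 ⊗ₜ[R] ⟨c, hc⟩, ?_⟩
    rw [coe_mu_tmul, map_one, one_mul]
  | zero => exact ⟨0, by rw [map_zero]; rfl⟩
  | add y₁ y₂ _ _ h₁ h₂ =>
    obtain ⟨z₁, hz₁⟩ := h₁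
    obtain ⟨z₂, hz₂⟩ := h₂
    refine ⟨z₁ + z₂, ?_⟩
    rw [map_add, ← hz₁, ← hz₂]
    rfl
  | smul r y _ h₁ =>
    obtain ⟨z₁, hz₁⟩ := h₁
    refine ⟨r • z₁, ?_⟩
    rw [map_smul, ← hz₁, Algebra.smul_def, Algebra.smul_def]
    rfl

end Map

/-! ### injectivity -/

section Inj

variable {π : R} {π' : R'} {Ov : ValuationSubring F} {Ov' : ValuationSubring F'}
  (D : BCData K L π π' Ov Ov') [Algebra R R'] (halg : ∀ r : R, algebraMap R R' r = D.iR r)
  {B : Subalgebra R F} {B' : Subalgebra R' F'} (hmap : ∀ x ∈ B, D.iF x ∈ B')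

/-- `L` as an `R`-algebra (through `R'`). -/
@[reducible] def algRL (R R' L : Type*) [CommRing R] [CommRing R'] [Field L] [Algebra R R']
    [Algebra R' L] : Algebra R L :=
  ((algebraMap R' L).comp (algebraMap R R')).toAlgebra

/-- `F'` as an `R`-algebra (through `R'`). -/
@[reducible] def algRF' (R R' F' : Type*) [CommRing R] [CommRing R'] [Field F'] [Algebra R R']
    [Algebra R' F'] : Algebra R F' :=
  ((algebraMap R' F').comp (algebraMap R R')).toAlgebra

include halg in
theorem algebraMap_RL (r : R) :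
    letI := algRL R R' L
    algebraMap R L r = D.iK (algebraMap R K r) := by
  show algebraMap R' L (algebraMap R R' r) = _
  rw [halg, D.hRK]

/-- the multiplication map `L ⊗[R] ↥B → F'`. -/
def nu (B : Subalgebra R F) :
    letI := algRL R R' L
    L ⊗[R] ↥B →ₐ[L] F' :=
  letI := algRL R R' L
  letI := algRF' R R' F'
  haveI : IsScalarTower R L F' := IsScalarTower.of_algebraMap_eq (fun r => by
    show algebraMap R' F' (algebraMap R R' r) = algebraMap L F' (algebraMap R' L (algebraMap R R' r))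
    rw [← IsScalarTower.algebraMap_apply R' L F'])
  Algebra.TensorProduct.lift (Algebra.ofId L F')
    ({ toFun := fun b => D.iF (b : F)
       map_one' := map_one D.iF
       map_mul' := fun x y => map_mul D.iF _ _
       map_zero' := map_zero D.iF
       map_add' := fun x y => map_add D.iF _ _
       commutes' := fun r => by
         show D.iF (algebraMap R F r) = algebraMap R' F' (algebraMap R R' r)
         rw [halg, D.hRF] } : ↥B →ₐ[R] F')
    (fun _ _ => Commute.all _ _)

theorem nu_tmul (l : L) (b : ↥B) :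
    letI := algRL R R' L
    nu D halg B (l ⊗ₜ[R] b) = algebraMap L F' l * D.iF (b : F) := rfl

include halg in
/-- every element of `L ⊗[R] B`, multiplied by a power of `π`, is `∑ ω i ⊗ y i`. -/
theorem exists_pow_smul_eq [IsFractionRing R K]
    (dvrR : ∀ r : R, r ≠ 0 → ∃ (k : ℕ) (v : Rˣ), r = π ^ k * v) :
    letI := algRL R R' L
    ∀ w : L ⊗[R] ↥B, ∃ (m : ℕ) (y : Fin D.n → ↥B), (π ^ m) • w = ∑ i, D.ω i ⊗ₜ[R] y i := by
  letI := algRL R R' L
  intro w
  induction w using TensorProduct.induction_on with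
  | zero => exact ⟨0, fun _ => 0, by simp⟩
  | tmul l b =>
    obtain ⟨c, hc⟩ := D.ω_span l
    obtain ⟨m, a, ha⟩ := exists_common_pow_mul_eq (K := K) dvrR c
    refine ⟨m, fun i => a i • b, ?_⟩
    have h1 : (π ^ m) • l = ∑ i, a i • D.ω i := by
      rw [Algebra.smul_def, hc, Finset.mul_sum]
      refine Finset.sum_congr rfl fun i _ => ?_
      rw [Algebra.smul_def, algebraMap_RL D halg, algebraMap_RL D halg, ← ha i, map_mul, map_pow,
        map_pow, mul_assoc]
    rw [TensorProduct.smul_tmul', h1, TensorProduct.sum_tmul]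
    refine Finset.sum_congr rfl fun i _ => ?_
    rw [TensorProduct.smul_tmul]
  | add w₁ w₂ h₁ h₂ =>
    obtain ⟨m₁, y₁, hy₁⟩ := h₁
    obtain ⟨m₂, y₂, hy₂⟩ := h₂
    refine ⟨m₁ + m₂, fun i => (π ^ m₂) • y₁ i + (π ^ m₁) • y₂ i, ?_⟩
    have e1 : (π ^ (m₁ + m₂)) • w₁ = (π ^ m₂) • ((π ^ m₁) • w₁) := by
      rw [smul_smul, ← pow_add, add_comm]
    have e2 : (π ^ (m₁ + m₂)) • w₂ = (π ^ m₁) • ((π ^ m₂) • w₂) := by
      rw [smul_smul, ← pow_add]
    rw [smul_add, e1, e2, hy₁, hy₂, Finset.smul_sum, Finset.smul_sum, ← Finset.sum_add_distrib]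
    refine Finset.sum_congr rfl fun i _ => ?_
    rw [TensorProduct.tmul_add, TensorProduct.tmul_smul, TensorProduct.tmul_smul]

include halg in
/-- the multiplication map `L ⊗[R] ↥B → F'` is injective. -/
theorem nu_injective [IsFractionRing R K]
    (dvrR : ∀ r : R, r ≠ 0 → ∃ (k : ℕ) (v : Rˣ), r = π ^ k * v) (pi_ne : algebraMap R F π ≠ 0) :
    letI := algRL R R' L
    Function.Injective (nu D halg B) := by
  letI := algRL R R' L
  rw [injective_iff_map_eq_zero]
  intro w hw
  obtain ⟨m, y, hy⟩ := exists_pow_smul_eq D halg (B := B) dvrR w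
  -- the `R`-action through `L`
  have hsm : (π ^ m) • w = (algebraMap R L (π ^ m)) • w := (algebraMap_smul L (π ^ m) w).symm
  have h0 : nu D halg B ((π ^ m) • w) = 0 := by
    rw [hsm, map_smul, hw, smul_zero]
  rw [hy, map_sum] at h0
  have hyi : ∀ i, ((y i : ↥B) : F) = 0 := by
    apply D.ω_indep
    rw [← h0]
    refine Finset.sum_congr rfl fun i _ => ?_
    rw [nu_tmul, mul_comm]
  have hy0 : ∀ i, y i = 0 := fun i => Subtype.ext (hyi i)
  have h1 : (algebraMap R L (π ^ m)) • w = 0 := by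
    rw [← hsm, hy]
    refine Finset.sum_eq_zero fun i _ => ?_
    rw [hy0 i, TensorProduct.tmul_zero]
  have hπL : algebraMap R L (π ^ m) ≠ 0 := by
    rw [algebraMap_RL D halg, map_pow, map_pow]
    refine pow_ne_zero _ ?_
    intro h
    apply pi_ne
    rw [IsScalarTower.algebraMap_apply R K F, (map_eq_zero D.iK).mp h, map_zero]
  rw [← inv_smul_smul₀ hπL w, h1, smul_zero]

include halg in
/-- **injectivity** of the multiplication map `R' ⊗[R] ↥B → ↥B'`. -/
theorem mu_injective [IsFractionRing R K] [IsFractionRing R' L]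
    (dvrR : ∀ r : R, r ≠ 0 → ∃ (k : ℕ) (v : Rˣ), r = π ^ k * v) (pi_ne : algebraMap R F π ≠ 0) :
    Function.Injective (mu D halg hmap) := by
  letI := algRL R R' L
  haveI : IsScalarTower R R' L := IsScalarTower.of_algebraMap_eq (fun _ => rfl)
  haveI : IsDomain R := Function.Injective.isDomain (algebraMap R K) (IsFractionRing.injective R K)
  haveI : IsPrincipalIdealRing R := isPrincipalIdealRing_of_dvr dvrR
  have hinjF : Function.Injective (algebraMap R F) := by
    rw [IsScalarTower.algebraMap_eq R K F]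
    exact (algebraMap K F).injective.comp (IsFractionRing.injective R K)
  haveI : Module.Flat R ↥B := flat_subalgebra hinjF B
  let j : R' →ₗ[R] L := (IsScalarTower.toAlgHom R R' L).toLinearMap
  have hj : Function.Injective j := IsFractionRing.injective R' L
  have hrT : Function.Injective (j.rTensor ↥B) :=
    Module.Flat.rTensor_preserves_injective_linearMap j hj
  have hcompat : ∀ z : R' ⊗[R] ↥B,
      nu D halg B (j.rTensor ↥B z) = ((mu D halg hmap z : ↥B') : F') := by
    intro z
    induction z using TensorProduct.induction_on with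
    | zero => rw [map_zero, map_zero, map_zero]; rfl
    | tmul r b =>
      rw [LinearMap.rTensor_tmul, nu_tmul, coe_mu_tmul, IsScalarTower.algebraMap_apply R' L F']
      rfl
    | add z₁ z₂ h₁ h₂ =>
      rw [map_add, map_add, map_add, h₁, h₂]
      rfl
  rw [injective_iff_map_eq_zero]
  intro z hz
  apply hrT
  rw [map_zero]
  apply nu_injective D halg (B := B) dvrR pi_ne
  rw [hcompat, hz, map_zero]
  rfl

/-- **The base change isomorphism** `R' ⊗[R] ↥B ≃ₐ[R'] ↥B'`, for `B' = R' · B`. -/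
def chartEquiv [IsFractionRing R K] [IsFractionRing R' L]
    (dvrR : ∀ r : R, r ≠ 0 → ∃ (k : ℕ) (v : Rˣ), r = π ^ k * v) (pi_ne : algebraMap R F π ≠ 0)
    (hspan : ∀ x ∈ B', x ∈ D.spanOf B) : R' ⊗[R] ↥B ≃ₐ[R'] ↥B' :=
  AlgEquiv.ofBijective (mu D halg hmap)
    ⟨mu_injective D halg hmap dvrR pi_ne, mu_surjective D halg hmap hspan⟩

theorem coe_chartEquiv_tmul [IsFractionRing R K] [IsFractionRing R' L]
    (dvrR : ∀ r : R, r ≠ 0 → ∃ (k : ℕ) (v : Rˣ), r = π ^ k * v) (pi_ne : algebraMap R F π ≠ 0)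
    (hspan : ∀ x ∈ B', x ∈ D.spanOf B) (r : R') (b : ↥B) :
    ((chartEquiv D halg hmap dvrR pi_ne hspan (r ⊗ₜ[R] b) : ↥B') : F') =
      algebraMap R' F' r * D.iF (b : F) := rfl

theorem chartEquiv_apply [IsFractionRing R K] [IsFractionRing R' L]
    (dvrR : ∀ r : R, r ≠ 0 → ∃ (k : ℕ) (v : Rˣ), r = π ^ k * v) (pi_ne : algebraMap R F π ≠ 0)
    (hspan : ∀ x ∈ B', x ∈ D.spanOf B) (z : R' ⊗[R] ↥B) :
    chartEquiv D halg hmap dvrR pi_ne hspan z = mu D halg hmap z := rfl

end Inj

end Fermat.Agent.T1.ModelBC51.Equiv
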