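/-
Programme T1a (S19), brick G2 MODEL-BC (helper51).  PART 4: base change of `TwoChartModel`s.

`hK : TwoChartModel R K F π t B0 B1 Ov` (the model over the small field `K`),
`hL : TwoChartModel R' L F' π' (D.iF t) B0' B1' Ov'` (the model over `L ⊇ K`), `D : BCData K L π π' Ov Ov'`
the base change data (`Abstract.lean`).  Then, as `R'`-submodules of `F'`,

  `B0' = R' · B0`,   `B1' = R' · B1`,   `B01' = R' · B01`

(`B01 = CoreB24.overlap t B0 _ = B0[1/t] = B1[t]` the overlap chart): `chart0_eq_spanOf`,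
`chart1_eq_spanOf`, `overlap_eq_spanOf`, and elementwise forms `mem_chart0_iff` etc.
`L / K` may be ramified at `π`.
-/
import Mathlib
import Fermat.Agent.RED.CORE.CoreB24
import Fermat.Agent.T1.ModelBC51.Abstract

set_option autoImplicit false
set_option linter.unusedSectionVars false
set_option linter.style.haveILetI false

noncomputable section

namespace Fermat.Agent.T1.ModelBC51.Model

open Polynomial Fermat.Agent.RED.CORE.CoreIface24 Fermat.Agent.RED.PUR.ChartGeneric22
open Fermat.Agent.RED.CORE.CoreB24 (overlap mem_overlap)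
open Fermat.Agent.T1.ModelBC51.InvPi Fermat.Agent.T1.ModelBC51.TraceCoord
open Fermat.Agent.T1.ModelBC51.Abstract

variable {R K F : Type*} [CommRing R] [Field K] [Field F] [Algebra R K] [Algebra K F]
  [Algebra R F] [IsScalarTower R K F]
variable {R' L F' : Type*} [CommRing R'] [Field L] [Field F'] [Algebra R' L] [Algebra L F']
  [Algebra R' F'] [IsScalarTower R' L F']
variable {π : R} {π' : R'} {Ov : ValuationSubring F} {Ov' : ValuationSubring F'}
  (D : BCData K L π π' Ov Ov')

/-- `F → F'` maps `R[s]` into `R'[s]`. -/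
theorem map_mem_adjoin (s : F) {y : F} (hy : y ∈ Algebra.adjoin R {s}) :
    D.iF y ∈ Algebra.adjoin R' {D.iF s} := by
  induction hy using Algebra.adjoin_induction with
  | mem x hx =>
    rw [Set.mem_singleton_iff] at hx
    subst hx
    exact Algebra.self_mem_adjoin_singleton R' _
  | algebraMap r =>
    rw [← D.hRF]
    exact Subalgebra.algebraMap_mem _ _
  | add x y _ _ hx hy =>
    rw [map_add]
    exact add_mem hx hy
  | mul x y _ _ hx hy =>
    rw [map_mul]
    exact mul_mem hx hy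

/-- elements of `R'[iF s]` are integral over `B[1/π]` when `s ∈ B`. -/
theorem intOverA_of_mem_adjoin (B : Subalgebra R F) (hKA : ∀ c : K, algebraMap K F c ∈ invPi π B)
    {s : F} (hs : s ∈ B) {y : F'} (hy : y ∈ Algebra.adjoin R' {D.iF s}) : D.IntOverA B y := by
  induction hy using Algebra.adjoin_induction with
  | mem x hx =>
    rw [Set.mem_singleton_iff] at hx
    subst hx
    exact D.intOverA_map B (le_invPi π B hs)
  | algebraMap r =>
    rw [IsScalarTower.algebraMap_apply R' L F']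
    exact D.intOverA_const B hKA _
  | add x y _ _ hx hy => exact D.intOverA_add B hx hy
  | mul x y _ _ hx hy => exact D.intOverA_mul B hx hy

/-- **A chart pair from integral closures of `R[s]`, `R'[s]`.** -/
theorem chartPair_of [IsFractionRing R K]
    (dvrR : ∀ r : R, r ≠ 0 → ∃ (k : ℕ) (v : Rˣ), r = π ^ k * v)
    {B : Subalgebra R F} {B' : Subalgebra R' F'} {s : F} (hs : s ∈ B) (hs' : D.iF s ∈ B')
    (intcl : ∀ x : F, IsIntegral B x → x ∈ B) (intcl' : ∀ x : F', IsIntegral B' x → x ∈ B')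
    (int : ∀ x ∈ B, IsIntegral (Algebra.adjoin R {s}) x)
    (int' : ∀ x ∈ B', IsIntegral (Algebra.adjoin R' {D.iF s}) x)
    (le_Ov : ∀ x ∈ B, x ∈ Ov) (le_Ov' : ∀ x ∈ B', x ∈ Ov')
    (sat : ∀ b ∈ B, ∀ c ∈ Ov, b = algebraMap R F π * c → c ∈ B) : D.ChartPair B B' where
  intcl := intcl
  le_Ov := le_Ov
  sat := sat
  le_Ov' := le_Ov'
  int' := by
    intro x hx
    have h := int' x hx
    rw [isIntegral_subalgebra_iff] at h
    obtain ⟨P, hP, hcoeff, hPx⟩ := h
    exact D.intOverA_of_root B P hP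
      (fun i => intOverA_of_mem_adjoin D B (algebraMap_mem_invPi B dvrR) hs (hcoeff i)) hPx
  map_mem := by
    intro x hx
    apply intcl'
    have h := int x hx
    rw [isIntegral_subalgebra_iff] at h ⊢
    obtain ⟨P, hP, hcoeff, hPx⟩ := h
    refine ⟨P.map D.iF, hP.map _, fun i => ?_, ?_⟩
    · rw [coeff_map]
      have h1 : Algebra.adjoin R' {D.iF s} ≤ B' :=
        Algebra.adjoin_le (Set.singleton_subset_iff.mpr hs')
      exact h1 (map_mem_adjoin D s (hcoeff i))
    · rw [eval_map, eval₂_at_apply, hPx, map_zero]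

section Models

variable {t : F} {B0 B1 : Subalgebra R F} {B0' B1' : Subalgebra R' F'}
  (hK : TwoChartModel R K F π t B0 B1 Ov)
  (hL : TwoChartModel R' L F' π' (D.iF t) B0' B1' Ov')

include hK hL in
/-- the chart pair `(B0, B0')`. -/
theorem chartPair0 : D.ChartPair B0 B0' :=
  haveI := hK.fracR
  chartPair_of D hK.dvrR hK.t_mem hL.t_mem hK.intcl0 hL.intcl0 hK.int0 hL.int0 hK.le_Ov0
    hL.le_Ov0 hK.sat0

include hK hL in
/-- the chart pair `(B1, B1')`. -/
theorem chartPair1 : D.ChartPair B1 B1' := by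
  haveI := hK.fracR
  have hinv : D.iF t⁻¹ = (D.iF t)⁻¹ := map_inv₀ D.iF t
  refine chartPair_of D hK.dvrR hK.tinv_mem (by rw [hinv]; exact hL.tinv_mem) hK.intcl1 hL.intcl1
    hK.int1 (by rw [hinv]; exact hL.int1) hK.le_Ov1 hL.le_Ov1 hK.sat1

include hK hL in
/-- **`B0' = R' · B0`.** -/
theorem chart0_eq_spanOf [CharZero K] : Subalgebra.toSubmodule B0' = D.spanOf B0 :=
  haveI := hK.fracR
  haveI := hL.fracR
  (chartPair0 D hK hL).eq_spanOf hK.dvrR hL.dvrR hK.pi_ne hL.pi_ne

include hK hL in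
/-- **`B1' = R' · B1`.** -/
theorem chart1_eq_spanOf [CharZero K] : Subalgebra.toSubmodule B1' = D.spanOf B1 :=
  haveI := hK.fracR
  haveI := hL.fracR
  (chartPair1 D hK hL).eq_spanOf hK.dvrR hL.dvrR hK.pi_ne hL.pi_ne

include hK hL in
/-- elementwise: `x ∈ B0'` iff `x` is an `R'`-combination of elements of `B0`. -/
theorem mem_chart0_iff [CharZero K] {x : F'} :
    x ∈ B0' ↔ ∃ (N : ℕ) (r : Fin N → R') (c : Fin N → F), (∀ k, c k ∈ B0) ∧
      x = ∑ k, algebraMap R' F' (r k) * D.iF (c k) := by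
  have h := chart0_eq_spanOf D hK hL
  constructor
  · intro hx
    have hx' : x ∈ D.spanOf B0 := by rw [← h]; exact hx
    obtain ⟨N, r, g, rfl⟩ := Submodule.mem_span_set'.mp hx'
    choose c hcB hc using fun k => (g k).2
    refine ⟨N, r, c, hcB, Finset.sum_congr rfl fun k _ => ?_⟩
    rw [Algebra.smul_def, hc]
  · rintro ⟨N, r, c, hc, rfl⟩
    have : ∑ k, algebraMap R' F' (r k) * D.iF (c k) ∈ D.spanOf B0 :=
      Submodule.sum_mem _ fun k _ => by
        rw [← Algebra.smul_def]
        exact Submodule.smul_mem _ _ (D.map_mem_spanOf B0 (hc k))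
    rw [← h] at this
    exact this

include hK hL in
/-- elementwise: `x ∈ B1'` iff `x` is an `R'`-combination of elements of `B1`. -/
theorem mem_chart1_iff [CharZero K] {x : F'} :
    x ∈ B1' ↔ ∃ (N : ℕ) (r : Fin N → R') (c : Fin N → F), (∀ k, c k ∈ B1) ∧
      x = ∑ k, algebraMap R' F' (r k) * D.iF (c k) := by
  have h := chart1_eq_spanOf D hK hL
  constructor
  · intro hx
    have hx' : x ∈ D.spanOf B1 := by rw [← h]; exact hx
    obtain ⟨N, r, g, rfl⟩ := Submodule.mem_span_set'.mp hx'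
    choose c hcB hc using fun k => (g k).2
    refine ⟨N, r, c, hcB, Finset.sum_congr rfl fun k _ => ?_⟩
    rw [Algebra.smul_def, hc]
  · rintro ⟨N, r, c, hc, rfl⟩
    have : ∑ k, algebraMap R' F' (r k) * D.iF (c k) ∈ D.spanOf B1 :=
      Submodule.sum_mem _ fun k _ => by
        rw [← Algebra.smul_def]
        exact Submodule.smul_mem _ _ (D.map_mem_spanOf B1 (hc k))
    rw [← h] at this
    exact this

include hK hL in
/-- **`B01' = R' · B01`** for the overlap charts `B01 = B0[1/t]`. -/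
theorem overlap_eq_spanOf [CharZero K] :
    Subalgebra.toSubmodule (overlap (D.iF t) B0' hL.t_mem) = D.spanOf (overlap t B0 hK.t_mem) := by
  have h0 := chart0_eq_spanOf D hK hL
  have ht0 : D.iF t ≠ 0 := fun h => hL.t_ne h
  apply le_antisymm
  · intro x hx
    obtain ⟨k, hk⟩ := hx
    have hk' : D.iF t ^ k * x ∈ D.spanOf B0 := by rw [← h0]; exact hk
    -- multiplication by `(iF t)⁻¹ ^ k`
    let μ : F' →ₗ[R'] F' := LinearMap.mulLeft R' ((D.iF t)⁻¹ ^ k)
    have hμ : Submodule.map μ (D.spanOf B0) ≤ D.spanOf (overlap t B0 hK.t_mem) := by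
      rw [BCData.spanOf, Submodule.map_span]
      refine Submodule.span_le.mpr ?_
      rintro _ ⟨_, ⟨c, hc, rfl⟩, rfl⟩
      have : μ (D.iF c) = D.iF (t⁻¹ ^ k * c) := by
        show (D.iF t)⁻¹ ^ k * D.iF c = _
        rw [map_mul, map_pow, map_inv₀]
      rw [this]
      refine D.map_mem_spanOf _ ⟨k, ?_⟩
      have h1 : t ^ k * (t⁻¹ ^ k * c) = c := by
        rw [← mul_assoc, ← mul_pow, mul_inv_cancel₀ hK.t_ne, one_pow, one_mul]
      rw [h1]; exact hc
    have hx' : x = μ (D.iF t ^ k * x) := by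
      show x = (D.iF t)⁻¹ ^ k * (D.iF t ^ k * x)
      rw [← mul_assoc, ← mul_pow, inv_mul_cancel₀ ht0, one_pow, one_mul]
    rw [hx']
    exact hμ (Submodule.mem_map_of_mem hk')
  · refine Submodule.span_le.mpr ?_
    rintro _ ⟨c, ⟨k, hk⟩, rfl⟩
    refine ⟨k, ?_⟩
    rw [← map_pow, ← map_mul]
    exact (chartPair0 D hK hL).map_mem _ hk

end Models

end Fermat.Agent.T1.ModelBC51.Model
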