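/-
Programme T1a (S19), brick G2 MODEL-BC (helper51).  PART 7: the base change isomorphisms of the
charts of two `TwoChartModel`s.

`hK : TwoChartModel R K F π t B0 B1 Ov`, `hL : TwoChartModel R' L F' π' (D.iF t) B0' B1' Ov'`,
`D : BCData K L π π' Ov Ov'`, `[Algebra R R']` with `algebraMap R R' = D.iR`.  Then

  `equiv0  : R' ⊗[R] ↥B0 ≃ₐ[R'] ↥B0'`,   `equiv1 : R' ⊗[R] ↥B1 ≃ₐ[R'] ↥B1'`,
  `equiv01 : R' ⊗[R] ↥(B0 ⊔ B1) ≃ₐ[R'] ↥(B0' ⊔ B1')`,

all given by `r ⊗ b ↦ r • D.iF b` (`coe_equiv0_tmul` ...), compatible with the inclusions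
`B_j ⊆ B0 ⊔ B1` (`equiv01_map_inclusion0/1`).
-/
import Mathlib
import Fermat.Agent.T1.ModelBC51.Model
import Fermat.Agent.T1.ModelBC51.Equiv

set_option autoImplicit false
set_option linter.unusedSectionVars false
set_option linter.style.haveILetI false

noncomputable section

namespace Fermat.Agent.T1.ModelBC51.ModelEquiv

open TensorProduct Fermat.Agent.RED.CORE.CoreIface24
open Fermat.Agent.RED.CORE.CoreB24 (overlap mem_overlap)
open Fermat.Agent.T1.ModelBC51.Abstract Fermat.Agent.T1.ModelBC51.Model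
open Fermat.Agent.T1.ModelBC51.Equiv

variable {R K F : Type*} [CommRing R] [Field K] [Field F] [Algebra R K] [Algebra K F]
  [Algebra R F] [IsScalarTower R K F]

/-- the overlap chart `B0[1/t]` is the join `B0 ⊔ B1`. -/
theorem overlap_eq_sup {π : R} {t : F} {B0 B1 : Subalgebra R F} {Ov : ValuationSubring F}
    (hK : TwoChartModel R K F π t B0 B1 Ov) : overlap t B0 hK.t_mem = B0 ⊔ B1 := by
  apply le_antisymm
  · rintro x ⟨k, hk⟩
    have hx : x = t⁻¹ ^ k * (t ^ k * x) := by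
      rw [← mul_assoc, ← mul_pow, inv_mul_cancel₀ hK.t_ne, one_pow, one_mul]
    rw [hx]
    exact mul_mem (pow_mem ((le_sup_right : B1 ≤ B0 ⊔ B1) hK.tinv_mem) k)
      ((le_sup_left : B0 ≤ B0 ⊔ B1) hk)
  · refine sup_le ?_ ?_
    · intro x hx
      exact ⟨0, by simpa using hx⟩
    · intro x hx
      exact hK.ov0 x hx

variable {R' L F' : Type*} [CommRing R'] [Field L] [Field F'] [Algebra R' L] [Algebra L F']
  [Algebra R' F'] [IsScalarTower R' L F']
variable {π : R} {π' : R'} {Ov : ValuationSubring F} {Ov' : ValuationSubring F'}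
  (D : BCData K L π π' Ov Ov') [Algebra R R'] (halg : ∀ r : R, algebraMap R R' r = D.iR r)
  {t : F} {B0 B1 : Subalgebra R F} {B0' B1' : Subalgebra R' F'}
  (hK : TwoChartModel R K F π t B0 B1 Ov)
  (hL : TwoChartModel R' L F' π' (D.iF t) B0' B1' Ov')

include hK hL in
theorem map_mem0 : ∀ x ∈ B0, D.iF x ∈ B0' := (chartPair0 D hK hL).map_mem

include hK hL in
theorem map_mem1 : ∀ x ∈ B1, D.iF x ∈ B1' := (chartPair1 D hK hL).map_mem

include hK hL in
theorem map_mem01 : ∀ x ∈ B0 ⊔ B1, D.iF x ∈ B0' ⊔ B1' := by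
  intro x hx
  rw [← overlap_eq_sup hK] at hx
  rw [← overlap_eq_sup hL]
  obtain ⟨k, hk⟩ := hx
  refine ⟨k, ?_⟩
  rw [← map_pow, ← map_mul]
  exact map_mem0 D hK hL _ hk

include hK hL in
theorem span0 [CharZero K] : ∀ x ∈ B0', x ∈ D.spanOf B0 := by
  intro x hx
  rw [← chart0_eq_spanOf D hK hL]
  exact hx

include hK hL in
theorem span1 [CharZero K] : ∀ x ∈ B1', x ∈ D.spanOf B1 := by
  intro x hx
  rw [← chart1_eq_spanOf D hK hL]
  exact hx

include hK hL in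
theorem span01 [CharZero K] : ∀ x ∈ B0' ⊔ B1', x ∈ D.spanOf (B0 ⊔ B1) := by
  intro x hx
  rw [← overlap_eq_sup hL] at hx
  rw [← overlap_eq_sup hK, ← overlap_eq_spanOf D hK hL]
  exact hx

/-- **`R' ⊗[R] B0 ≃ B0'`.** -/
def equiv0 [CharZero K] : R' ⊗[R] ↥B0 ≃ₐ[R'] ↥B0' :=
  haveI := hK.fracR
  haveI := hL.fracR
  chartEquiv D halg (map_mem0 D hK hL) hK.dvrR hK.pi_ne (span0 D hK hL)

/-- **`R' ⊗[R] B1 ≃ B1'`.** -/
def equiv1 [CharZero K] : R' ⊗[R] ↥B1 ≃ₐ[R'] ↥B1' :=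
  haveI := hK.fracR
  haveI := hL.fracR
  chartEquiv D halg (map_mem1 D hK hL) hK.dvrR hK.pi_ne (span1 D hK hL)

/-- **`R' ⊗[R] (B0 ⊔ B1) ≃ B0' ⊔ B1'`.** -/
def equiv01 [CharZero K] : R' ⊗[R] ↥(B0 ⊔ B1) ≃ₐ[R'] ↥(B0' ⊔ B1') :=
  haveI := hK.fracR
  haveI := hL.fracR
  chartEquiv D halg (map_mem01 D hK hL) hK.dvrR hK.pi_ne (span01 D hK hL)

theorem coe_equiv0_tmul [CharZero K] (r : R') (b : ↥B0) :
    ((equiv0 D halg hK hL (r ⊗ₜ[R] b) : ↥B0') : F') = algebraMap R' F' r * D.iF (b : F) := rfl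

theorem coe_equiv1_tmul [CharZero K] (r : R') (b : ↥B1) :
    ((equiv1 D halg hK hL (r ⊗ₜ[R] b) : ↥B1') : F') = algebraMap R' F' r * D.iF (b : F) := rfl

theorem coe_equiv01_tmul [CharZero K] (r : R') (b : ↥(B0 ⊔ B1)) :
    ((equiv01 D halg hK hL (r ⊗ₜ[R] b) : ↥(B0' ⊔ B1')) : F') =
      algebraMap R' F' r * D.iF (b : F) := rfl

/-- compatibility with the inclusion `B0 ⊆ B0 ⊔ B1`. -/
theorem equiv01_map_inclusion0 [CharZero K] (z : R' ⊗[R] ↥B0) :
    equiv01 D halg hK hL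
        (Algebra.TensorProduct.map (AlgHom.id R' R')
          (Subalgebra.inclusion (le_sup_left : B0 ≤ B0 ⊔ B1)) z) =
      Subalgebra.inclusion (le_sup_left : B0' ≤ B0' ⊔ B1') (equiv0 D halg hK hL z) := by
  induction z using TensorProduct.induction_on with
  | zero => simp only [map_zero]
  | tmul r b => exact Subtype.ext rfl
  | add z₁ z₂ h₁ h₂ => simp only [map_add, h₁, h₂]

/-- compatibility with the inclusion `B1 ⊆ B0 ⊔ B1`. -/
theorem equiv01_map_inclusion1 [CharZero K] (z : R' ⊗[R] ↥B1) :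
    equiv01 D halg hK hL
        (Algebra.TensorProduct.map (AlgHom.id R' R')
          (Subalgebra.inclusion (le_sup_right : B1 ≤ B0 ⊔ B1)) z) =
      Subalgebra.inclusion (le_sup_right : B1' ≤ B0' ⊔ B1') (equiv1 D halg hK hL z) := by
  induction z using TensorProduct.induction_on with
  | zero => simp only [map_zero]
  | tmul r b => exact Subtype.ext rfl
  | add z₁ z₂ h₁ h₂ => simp only [map_add, h₁, h₂]

/-- the images of `1 ⊗ t` and `1 ⊗ t⁻¹`. -/
theorem coe_equiv0_t [CharZero K] :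
    ((equiv0 D halg hK hL (1 ⊗ₜ[R] ⟨t, hK.t_mem⟩) : ↥B0') : F') = D.iF t := by
  rw [coe_equiv0_tmul, map_one, one_mul]

theorem coe_equiv1_tinv [CharZero K] :
    ((equiv1 D halg hK hL (1 ⊗ₜ[R] ⟨t⁻¹, hK.tinv_mem⟩) : ↥B1') : F') = (D.iF t)⁻¹ := by
  rw [coe_equiv1_tmul, map_one, one_mul, map_inv₀]

end Fermat.Agent.T1.ModelBC51.ModelEquiv
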