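/-
Programme T1a (S19), brick G2 MODEL-BC (helper51).  PART 5: the base change data for subfields of
Laurent series fields, from `q`-expansions.

Setting: a field embedding `φ : K → L`, valuation subrings `O ⊂ K`, `O' ⊂ L` with `O = φ⁻¹ O'`,
uniformisers `π`, `π'`, subfields `E ⊂ K((q))`, `E' ⊂ L((q))` inside the fraction fields of the Gauss
rings, with `E' = L · Φ(E)` (`Φ = coeffMap φ`).  Given
* `ω : Fin n → L`, a `K`-basis of `L`,
* `θ : Fin f → O'` whose residues form a basis of the residue field of `O'` over that of `O`,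
* `φ π ∈ π' O'`,
`bcData` is the `Abstract.BCData K L π π' (gaussVS hπ E hE) (gaussVS hπ' E' hE')` for
`R = ↥O`, `F = ↥E`, `R' = ↥O'`, `F' = ↥E'`: all `q`-expansion facts are coefficientwise.
-/
import Mathlib
import Fermat.Agent.RED.PUR.GaussGen8
import Fermat.Agent.T1.ModelBC51.Abstract

set_option autoImplicit false
set_option linter.unusedSectionVars false
set_option linter.style.haveILetI false

noncomputable section

namespace Fermat.Agent.T1.ModelBC51.Concrete

open HahnSeries ModularCurve IntermediateField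
open Fermat.Agent.RED.PUR.GaussGen8 Fermat.Agent.T1.ModelBC51.Abstract

variable {K L : Type*} [Field K] [Field L] (φ : K →+* L)

/-! ### coefficientwise linear algebra -/

section Coeff

theorem coeffMap_C' (c : K) : coeffMap φ (HahnSeries.C c : LaurentSeries K) = HahnSeries.C (φ c) :=
  coeffMap_C φ c

theorem coeffMap_injective : Function.Injective (coeffMap φ) := by
  intro x y h
  ext k
  have := congrArg (fun s => HahnSeries.coeff s k) h
  simp only [coeffMap_coeff] at this
  exact φ.injective this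

theorem coeff_C_mul' (c : L) (y : LaurentSeries L) (k : ℤ) :
    ((HahnSeries.C c : LaurentSeries L) * y).coeff k = c * y.coeff k :=
  C_mul_coeff c y k

variable {n : ℕ} (ω : Fin n → L)

/-- coefficientwise independence. -/
theorem series_indep (hω : ∀ c : Fin n → K, ∑ i, φ (c i) * ω i = 0 → ∀ i, c i = 0)
    (a : Fin n → LaurentSeries K)
    (h : ∑ i, coeffMap φ (a i) * (HahnSeries.C (ω i) : LaurentSeries L) = 0) : ∀ i, a i = 0 := by
  have hk : ∀ k : ℤ, ∀ i, (a i).coeff k = 0 := by
    intro k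
    apply hω
    have := congrArg (fun s => HahnSeries.coeff s k) h
    simp only [HahnSeries.coeff_sum, HahnSeries.coeff_zero] at this
    rw [← this]
    refine Finset.sum_congr rfl fun i _ => ?_
    rw [mul_comm (coeffMap φ (a i)), coeff_C_mul', coeffMap_coeff, mul_comm]
  intro i
  ext k
  exact hk k i

end Coeff

/-! ### the set `L · Φ(E)` -/

section Span

variable {n : ℕ} (ω : Fin n → L) (E : IntermediateField K (LaurentSeries K))

/-- `Σ ω i · Φ (E)` -/
def spanSet : Set (LaurentSeries L) :=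
  {x | ∃ a : Fin n → LaurentSeries K, (∀ i, a i ∈ E) ∧
    x = ∑ i, coeffMap φ (a i) * (HahnSeries.C (ω i) : LaurentSeries L)}

variable {φ ω E}

theorem add_mem_spanSet {x y : LaurentSeries L} (hx : x ∈ spanSet φ ω E) (hy : y ∈ spanSet φ ω E) :
    x + y ∈ spanSet φ ω E := by
  obtain ⟨a, ha, rfl⟩ := hx
  obtain ⟨b, hb, rfl⟩ := hy
  refine ⟨fun i => a i + b i, fun i => add_mem (ha i) (hb i), ?_⟩
  rw [← Finset.sum_add_distrib]
  refine Finset.sum_congr rfl fun i _ => ?_
  rw [map_add, add_mul]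

theorem zero_mem_spanSet : (0 : LaurentSeries L) ∈ spanSet φ ω E :=
  ⟨fun _ => 0, fun _ => zero_mem _, by simp⟩

theorem sum_mem_spanSet {ι : Type*} (s : Finset ι) (x : ι → LaurentSeries L)
    (h : ∀ i ∈ s, x i ∈ spanSet φ ω E) : ∑ i ∈ s, x i ∈ spanSet φ ω E := by
  classical
  induction s using Finset.induction_on with
  | empty => simpa using zero_mem_spanSet
  | insert a s ha ih =>
    rw [Finset.sum_insert ha]
    exact add_mem_spanSet (h a (Finset.mem_insert_self a s))
      (ih fun i hi => h i (Finset.mem_insert_of_mem hi))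

/-- `Φ e · l ∈ Σ ω i Φ(E)` for `e ∈ E`, `l ∈ L`. -/
theorem map_mul_const_mem_spanSet (hsp : ∀ l : L, ∃ c : Fin n → K, l = ∑ i, φ (c i) * ω i)
    {e : LaurentSeries K} (he : e ∈ E) (l : L) :
    coeffMap φ e * (HahnSeries.C l : LaurentSeries L) ∈ spanSet φ ω E := by
  obtain ⟨c, hc⟩ := hsp l
  refine ⟨fun i => e * HahnSeries.C (c i), fun i => mul_mem he ?_, ?_⟩
  · rw [← algebraMap_eq_C]; exact E.algebraMap_mem _
  · rw [hc, map_sum, Finset.mul_sum]
    refine Finset.sum_congr rfl fun i _ => ?_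
    rw [map_mul, map_mul, coeffMap_C']
    ring

theorem mul_mem_spanSet (hsp : ∀ l : L, ∃ c : Fin n → K, l = ∑ i, φ (c i) * ω i)
    {x y : LaurentSeries L} (hx : x ∈ spanSet φ ω E) (hy : y ∈ spanSet φ ω E) :
    x * y ∈ spanSet φ ω E := by
  obtain ⟨a, ha, rfl⟩ := hx
  obtain ⟨b, hb, rfl⟩ := hy
  rw [Finset.sum_mul_sum]
  refine sum_mem_spanSet _ _ fun i _ => sum_mem_spanSet _ _ fun j _ => ?_
  have : coeffMap φ (a i) * (HahnSeries.C (ω i) : LaurentSeries L) *
      (coeffMap φ (b j) * (HahnSeries.C (ω j) : LaurentSeries L)) =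
      coeffMap φ (a i * b j) * (HahnSeries.C (ω i * ω j) : LaurentSeries L) := by
    rw [map_mul, map_mul]; ring
  rw [this]
  exact map_mul_const_mem_spanSet hsp (mul_mem (ha i) (hb j)) _

theorem const_mem_spanSet (hsp : ∀ l : L, ∃ c : Fin n → K, l = ∑ i, φ (c i) * ω i) (l : L) :
    (HahnSeries.C l : LaurentSeries L) ∈ spanSet φ ω E := by
  have := map_mul_const_mem_spanSet (E := E) hsp (one_mem E) l
  rwa [map_one, one_mul] at this

theorem map_mem_spanSet (hsp : ∀ l : L, ∃ c : Fin n → K, l = ∑ i, φ (c i) * ω i)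
    {e : LaurentSeries K} (he : e ∈ E) : coeffMap φ e ∈ spanSet φ ω E := by
  have := map_mul_const_mem_spanSet (E := E) hsp he 1
  rwa [map_one, mul_one] at this

variable (φ ω E)

/-- `Σ ω i Φ(E)` as a subalgebra of `L((q))` over `L`. -/
def spanAlg (hsp : ∀ l : L, ∃ c : Fin n → K, l = ∑ i, φ (c i) * ω i) :
    Subalgebra L (LaurentSeries L) where
  carrier := spanSet φ ω E
  mul_mem' := mul_mem_spanSet hsp
  add_mem' := add_mem_spanSet
  algebraMap_mem' := fun l => by
    rw [algebraMap_eq_C]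
    exact const_mem_spanSet hsp l

variable {φ ω E}

/-- `Σ ω i Φ(E)` is closed under inverses (a domain which is finite over the field `E`). -/
theorem inv_mem_spanSet (hsp : ∀ l : L, ∃ c : Fin n → K, l = ∑ i, φ (c i) * ω i)
    {x : LaurentSeries L} (hx : x ∈ spanSet φ ω E) : x⁻¹ ∈ spanSet φ ω E := by
  classical
  rcases eq_or_ne x 0 with rfl | hx0
  · rw [inv_zero]; exact zero_mem_spanSet
  letI : Algebra ↥E (LaurentSeries L) :=
    ((coeffMap φ).comp (algebraMap ↥E (LaurentSeries K))).toAlgebra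
  have hsm : ∀ (e : ↥E) (y : LaurentSeries L), e • y = coeffMap φ (e : LaurentSeries K) * y :=
    fun e y => by rw [Algebra.smul_def]; rfl
  let T : Submodule ↥E (LaurentSeries L) :=
    Submodule.span ↥E (Set.range fun i => (HahnSeries.C (ω i) : LaurentSeries L))
  have hT : ∀ y : LaurentSeries L, y ∈ T ↔ y ∈ spanSet φ ω E := by
    intro y
    rw [Submodule.mem_span_range_iff_exists_fun]
    constructor
    · rintro ⟨c, rfl⟩
      exact ⟨fun i => (c i : LaurentSeries K), fun i => (c i).2,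
        Finset.sum_congr rfl fun i _ => hsm _ _⟩
    · rintro ⟨a, ha, rfl⟩
      exact ⟨fun i => ⟨a i, ha i⟩, Finset.sum_congr rfl fun i _ => hsm _ _⟩
  haveI : Module.Finite ↥E ↥T := Module.Finite.span_of_finite ↥E (Set.finite_range _)
  let m : ↥T →ₗ[↥E] ↥T :=
    { toFun := fun y => ⟨x * y, (hT _).mpr (mul_mem_spanSet hsp hx ((hT _).mp y.2))⟩
      map_add' := fun y z => Subtype.ext (mul_add x y z)
      map_smul' := fun e y => Subtype.ext (by
        show x * (e • (y : LaurentSeries L)) = e • (x * (y : LaurentSeries L))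
        rw [hsm, hsm]; ring) }
  have hinj : Function.Injective m := by
    intro y z h
    have := congrArg Subtype.val h
    exact Subtype.ext (mul_left_cancel₀ hx0 this)
  have hsurj := LinearMap.surjective_of_injective hinj
  have h1 : (1 : LaurentSeries L) ∈ T := (hT _).mpr (by
    have := const_mem_spanSet (E := E) hsp 1
    rwa [map_one] at this)
  obtain ⟨y, hy⟩ := hsurj ⟨1, h1⟩
  have hxy : x * (y : LaurentSeries L) = 1 := congrArg Subtype.val hy
  have : x⁻¹ = (y : LaurentSeries L) := by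
    rw [eq_comm, ← mul_right_inj' hx0, hxy, mul_inv_cancel₀ hx0]
  rw [this]
  exact (hT _).mp y.2

/-- **`L · Φ(E) ⊆ Σ ω i Φ(E)`.** -/
theorem adjoin_le_spanSet (hsp : ∀ l : L, ∃ c : Fin n → K, l = ∑ i, φ (c i) * ω i)
    {x : LaurentSeries L} (hx : x ∈ IntermediateField.adjoin L (⇑(coeffMap φ) '' (E : Set _))) :
    x ∈ spanSet φ ω E := by
  let S : IntermediateField L (LaurentSeries L) :=
    Subalgebra.toIntermediateField (spanAlg φ ω E hsp) (fun y hy => inv_mem_spanSet hsp hy)
  have hle : IntermediateField.adjoin L (⇑(coeffMap φ) '' (E : Set _)) ≤ S := by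
    rw [IntermediateField.adjoin_le_iff]
    rintro _ ⟨e, he, rfl⟩
    exact map_mem_spanSet hsp he
  exact hle hx

end Span

/-! ### Gauss rings -/

section Gauss

variable {O : ValuationSubring K} {O' : ValuationSubring L} (hOO' : ∀ x : K, x ∈ O ↔ φ x ∈ O')

/-- the restriction of `φ` to the valuation rings. -/
def iR : ↥O →+* ↥O' := (φ.comp O.subtype).codRestrict O' (fun x => (hOO' x).mp x.2)

theorem coe_iR (x : ↥O) : ((iR φ hOO' x : ↥O') : L) = φ (x : K) := rfl

theorem mem_maximalIdeal_iff (x : ↥O) :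
    iR φ hOO' x ∈ IsLocalRing.maximalIdeal ↥O' ↔ x ∈ IsLocalRing.maximalIdeal ↥O := by
  rw [ValuationSubring.valuation_lt_one_iff, ValuationSubring.valuation_lt_one_iff,
    ← ValuationSubring.mem_nonunits_iff, ← ValuationSubring.mem_nonunits_iff,
    ValuationSubring.mem_nonunits_iff_or, ValuationSubring.mem_nonunits_iff_or, coe_iR,
    map_eq_zero, ← map_inv₀, ← hOO']

instance isLocalHom_iR : IsLocalHom (iR φ hOO') := by
  constructor
  intro a ha
  by_contra h
  have h1 : a ∈ IsLocalRing.maximalIdeal ↥O := (IsLocalRing.mem_maximalIdeal a).mpr h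
  have h2 := (mem_maximalIdeal_iff φ hOO' a).mpr h1
  exact (IsLocalRing.mem_maximalIdeal _).mp h2 ha

/-- the induced map of residue fields. -/
def resMap : Res O →+* Res O' := IsLocalRing.ResidueField.map (iR φ hOO')

theorem resMap_res0 (x : ↥O) : resMap φ hOO' (res0 O x) = res0 O' (iR φ hOO' x) := rfl

theorem embK_iR (a : LaurentSeries ↥O) :
    embK O' (coeffMap (iR φ hOO') a) = coeffMap φ (embK O a) := by
  unfold embK
  rw [coeffMap_coeffMap, coeffMap_coeffMap]
  rfl

theorem redL_iR (a : LaurentSeries ↥O) :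
    redL O' (coeffMap (iR φ hOO') a) = coeffMap (resMap φ hOO') (redL O a) := by
  unfold redL
  rw [coeffMap_coeffMap, coeffMap_coeffMap]
  rfl

/-- `Φ` maps the Gauss ring of `O` into the Gauss ring of `O'`, compatibly with the reductions. -/
theorem map_isRep {f : LaurentSeries K} {a s : LaurentSeries ↥O} (h : IsRep O f a s) :
    IsRep O' (coeffMap φ f) (coeffMap (iR φ hOO') a) (coeffMap (iR φ hOO') s) := by
  refine ⟨?_, ?_⟩
  · rw [redL_iR]
    intro h0
    apply h.1
    exact coeffMap_injective (resMap φ hOO') (by rw [h0, map_zero])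
  · rw [embK_iR, embK_iR, ← map_mul, h.2]

include hOO' in
theorem map_mem_gaussRing {f : LaurentSeries K} (hf : f ∈ gaussRing O) :
    coeffMap φ f ∈ gaussRing O' := by
  obtain ⟨a, s, h⟩ := hf
  exact ⟨_, _, map_isRep φ hOO' h⟩

theorem gaussRed_map {f : LaurentSeries K} (hf : f ∈ gaussRing O) :
    gaussRed O' ⟨coeffMap φ f, map_mem_gaussRing φ hOO' hf⟩ =
      coeffMap (resMap φ hOO') (gaussRed O ⟨f, hf⟩) := by
  obtain ⟨a, s, h⟩ := hf
  rw [gaussRed_eq O' (f := ⟨coeffMap φ f, _⟩) (map_isRep φ hOO' h),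
    gaussRed_eq O (f := ⟨f, _⟩) h, redL_iR, redL_iR, map_div₀]

end Gauss

/-! ### the base change data -/

section Data

variable {O : ValuationSubring K} {O' : ValuationSubring L} (hOO' : ∀ x : K, x ∈ O ↔ φ x ∈ O')
  {π : ↥O} {π' : ↥O'} (hπ : IsUnif O π) (hπ' : IsUnif O' π')
  {E : IntermediateField K (LaurentSeries K)} {E' : IntermediateField L (LaurentSeries L)}
  (hE : E ≤ fracField O) (hE' : E' ≤ fracField O')
  (hEE' : ∀ x ∈ E, coeffMap φ x ∈ E')

/-- `Φ : E → E'`. -/
def iF : ↥E →+* ↥E' :=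
  ((coeffMap φ).comp (algebraMap ↥E (LaurentSeries K))).codRestrict E' (fun x => hEE' x x.2)

theorem coe_iF (x : ↥E) :
    ((iF φ hEE' x : ↥E') : LaurentSeries L) = coeffMap φ (x : LaurentSeries K) := rfl

theorem coe_algebraMap_OE (E : IntermediateField K (LaurentSeries K)) (a : ↥O) :
    ((algebraMap ↥O ↥E a : ↥E) : LaurentSeries K) = HahnSeries.C ((a : ↥O) : K) := by
  show algebraMap K (LaurentSeries K) ((a : ↥O) : K) = _
  exact algebraMap_eq_C _

theorem coe_algebraMap_KE (E : IntermediateField K (LaurentSeries K)) (c : K) :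
    ((algebraMap K ↥E c : ↥E) : LaurentSeries K) = HahnSeries.C c := by
  show algebraMap K (LaurentSeries K) c = _
  exact algebraMap_eq_C _

theorem coe_sum_mul {ι : Type*} (t : Finset ι) (E' : IntermediateField L (LaurentSeries L))
    (x y : ι → ↥E') :
    ((∑ i ∈ t, x i * y i : ↥E') : LaurentSeries L) =
      ∑ i ∈ t, (x i : LaurentSeries L) * (y i : LaurentSeries L) := by
  push_cast
  rfl

include hπ hπ' in
/-- the linear disjointness of `κ'` and the residue field of the Gauss valuation, over `κ`. -/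
theorem ld_res_gauss {f : ℕ} (θ : Fin f → ↥O')
    (hθind : ∀ c : Fin f → Res O, ∑ i, resMap φ hOO' (c i) * res0 O' (θ i) = 0 → ∀ i, c i = 0)
    (y : Fin f → ↥E) (hy : ∀ i, y i ∈ gaussVS hπ E hE)
    (h : ∃ z ∈ gaussVS hπ' E' hE', ∑ i, algebraMap ↥O' ↥E' (θ i) * iF φ hEE' (y i) =
      algebraMap ↥O' ↥E' π' * z) :
    ∀ i, ∃ z ∈ gaussVS hπ E hE, y i = algebraMap ↥O ↥E π * z := by
  obtain ⟨z, hz, hsum⟩ := h
  have hyG : ∀ i, ((y i : ↥E) : LaurentSeries K) ∈ gaussRing O :=
    fun i => (mem_gaussVS_iff hπ E hE _).mp (hy i)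
  have hzG : ((z : ↥E') : LaurentSeries L) ∈ gaussRing O' := (mem_gaussVS_iff hπ' E' hE' _).mp hz
  -- the relation in the Gauss ring of `O'`
  have hsumL : ∑ i, (HahnSeries.C ((θ i : ↥O') : L) : LaurentSeries L) *
      coeffMap φ (y i : LaurentSeries K) = HahnSeries.C ((π' : ↥O') : L) * (z : LaurentSeries L) := by
    have := congrArg (fun w : ↥E' => (w : LaurentSeries L)) hsum
    rw [coe_sum_mul] at this
    simp only [coe_algebraMap_OE, coe_iF] at this
    rw [this]
    push_cast
    rw [coe_algebraMap_OE]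
  have hrel : ∑ i, constG O' (θ i) * (⟨coeffMap φ (y i : LaurentSeries K),
      map_mem_gaussRing φ hOO' (hyG i)⟩ : gaussRing O') = constG O' π' * ⟨_, hzG⟩ := by
    apply Subtype.ext
    rw [Subring.coe_mul, AddSubmonoidClass.coe_finsetSum]
    exact hsumL
  have hred := congrArg (gaussRed O') hrel
  rw [map_mul, gaussRed_unif hπ', zero_mul, map_sum] at hred
  have hterm : ∀ i, gaussRed O' (constG O' (θ i) * (⟨coeffMap φ (y i : LaurentSeries K),
      map_mem_gaussRing φ hOO' (hyG i)⟩ : gaussRing O')) =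
      coeffMap (resMap φ hOO') (gaussRed O ⟨_, hyG i⟩) *
        (HahnSeries.C (res0 O' (θ i)) : LaurentSeries (Res O')) := fun i => by
    rw [map_mul, gaussRed_constG, gaussRed_map φ hOO' (hyG i), mul_comm]
  rw [Finset.sum_congr rfl (fun i _ => hterm i)] at hred
  -- coefficientwise independence
  have hzero : ∀ i, gaussRed O ⟨_, hyG i⟩ = 0 := by
    apply series_indep (resMap φ hOO') (fun i => res0 O' (θ i)) hθind
    exact hred
  intro i
  obtain ⟨g, hg⟩ := (gaussRed_eq_zero_iff hπ _).mp (hzero i)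
  have hgK : ((y i : ↥E) : LaurentSeries K) = HahnSeries.C ((π : ↥O) : K) * (g : LaurentSeries K) :=
    congrArg Subtype.val hg
  have hπE : algebraMap ↥O ↥E π ≠ 0 := by
    intro h0
    have := congrArg (fun w : ↥E => (w : LaurentSeries K)) h0
    simp only [coe_algebraMap_OE] at this
    exact piK_ne_zero hπ this
  refine ⟨(algebraMap ↥O ↥E π)⁻¹ * y i, ?_, ?_⟩
  · rw [mem_gaussVS_iff]
    have : (((algebraMap ↥O ↥E π)⁻¹ * y i : ↥E) : LaurentSeries K) = (g : LaurentSeries K) := by
      push_cast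
      rw [coe_algebraMap_OE, hgK, ← mul_assoc, inv_mul_cancel₀ (piK_ne_zero hπ), one_mul]
    rw [this]
    exact g.2
  · rw [← mul_assoc, mul_inv_cancel₀ hπE, one_mul]

/-- **The base change data from `q`-expansions.** -/
def bcData (hgen : E' ≤ IntermediateField.adjoin L (⇑(coeffMap φ) '' (E : Set _)))
    (n : ℕ) (ω : Fin n → L) (hsp : ∀ l : L, ∃ c : Fin n → K, l = ∑ i, φ (c i) * ω i)
    (hind : ∀ c : Fin n → K, ∑ i, φ (c i) * ω i = 0 → ∀ i, c i = 0)
    (f : ℕ) (θ : Fin f → ↥O')
    (hθsp : ∀ r : ↥O', ∃ (c : Fin f → ↥O) (r' : ↥O'), r = ∑ i, iR φ hOO' (c i) * θ i + π' * r')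
    (hθind : ∀ c : Fin f → Res O, ∑ i, resMap φ hOO' (c i) * res0 O' (θ i) = 0 → ∀ i, c i = 0)
    (hdvd : ∃ u : ↥O', iR φ hOO' π = π' * u) :
    BCData K L π π' (gaussVS hπ E hE) (gaussVS hπ' E' hE') where
  iR := iR φ hOO'
  iK := φ
  iF := iF φ hEE'
  hRK := fun _ => rfl
  hKF := fun c => by
    apply Subtype.ext
    rw [coe_iF, coe_algebraMap_KE, coe_algebraMap_KE, coeffMap_C']
  n := n
  ω := ω
  ω_span := hsp
  ω_indep := by
    intro a ha
    have h1 := congrArg (fun w : ↥E' => (w : LaurentSeries L)) ha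
    rw [coe_sum_mul] at h1
    simp only [coe_iF, coe_algebraMap_KE] at h1
    push_cast at h1
    have h2 := series_indep φ ω hind (fun i => (a i : LaurentSeries K)) h1
    intro i
    exact Subtype.ext (h2 i)
  ω_spanF := by
    intro x
    obtain ⟨a, ha, hx⟩ := adjoin_le_spanSet (E := E) hsp (hgen x.2)
    refine ⟨fun i => ⟨a i, ha i⟩, Subtype.ext ?_⟩
    rw [coe_sum_mul]
    simp only [coe_iF, coe_algebraMap_KE]
    exact hx
  f := f
  θ := θ
  θ_span := hθsp
  pi_dvd := hdvd
  ld_res := ld_res_gauss φ hOO' hπ hπ' hE hE' hEE' θ hθind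

/-- `φ π ∈ π' O'`. -/
theorem exists_pi_dvd (hπ : IsUnif O π) (hπ' : IsUnif O' π') : ∃ u : ↥O', iR φ hOO' π = π' * u := by
  have h1 : π ∈ IsLocalRing.maximalIdeal ↥O := by
    rw [hπ.max_eq]; exact Ideal.mem_span_singleton_self π
  have h2 := (mem_maximalIdeal_iff φ hOO' π).mpr h1
  rw [hπ'.max_eq, Ideal.mem_span_singleton] at h2
  exact h2

/-- existence of the constant-field basis `ω`. -/
theorem exists_omega (hfin : @Module.Finite K L _ _ φ.toAlgebra.toModule) :
    ∃ (n : ℕ) (ω : Fin n → L), (∀ l : L, ∃ c : Fin n → K, l = ∑ i, φ (c i) * ω i) ∧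
      (∀ c : Fin n → K, ∑ i, φ (c i) * ω i = 0 → ∀ i, c i = 0) := by
  letI : Algebra K L := φ.toAlgebra
  haveI : Module.Finite K L := hfin
  have hs : ∀ (c : K) (l : L), c • l = φ c * l := fun c l => by rw [Algebra.smul_def]; rfl
  let b := Module.finBasis K L
  refine ⟨_, b, fun l => ⟨fun i => b.repr l i, ?_⟩, fun c hc => ?_⟩
  · conv_lhs => rw [← b.sum_repr l]
    exact Finset.sum_congr rfl fun i _ => hs _ _
  · have hli := b.linearIndependent
    rw [Fintype.linearIndependent_iff] at hli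
    apply hli
    rw [← hc]
    exact Finset.sum_congr rfl fun i _ => hs _ _

/-- existence of the residue data `θ`. -/
theorem exists_theta (hπ' : IsUnif O' π')
    (hfin : @Module.Finite (Res O) (Res O') _ _ (resMap φ hOO').toAlgebra.toModule) :
    ∃ (f : ℕ) (θ : Fin f → ↥O'),
      (∀ r : ↥O', ∃ (c : Fin f → ↥O) (r' : ↥O'), r = ∑ i, iR φ hOO' (c i) * θ i + π' * r') ∧
      (∀ c : Fin f → Res O, ∑ i, resMap φ hOO' (c i) * res0 O' (θ i) = 0 → ∀ i, c i = 0) := by
  letI : Algebra (Res O) (Res O') := (resMap φ hOO').toAlgebra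
  haveI : Module.Finite (Res O) (Res O') := hfin
  have hs : ∀ (c : Res O) (l : Res O'), c • l = resMap φ hOO' c * l :=
    fun c l => by rw [Algebra.smul_def]; rfl
  let b := Module.finBasis (Res O) (Res O')
  choose θ hθ using fun i => IsLocalRing.residue_surjective (b i)
  refine ⟨_, θ, fun r => ?_, fun c hc => ?_⟩
  · choose c hc using fun i => IsLocalRing.residue_surjective (b.repr (res0 O' r) i)
    have hres : res0 O' (r - ∑ i, iR φ hOO' (c i) * θ i) = 0 := by
      rw [map_sub, map_sum, sub_eq_zero]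
      conv_lhs => rw [← b.sum_repr (res0 O' r)]
      refine Finset.sum_congr rfl fun i _ => ?_
      rw [hs, map_mul, ← resMap_res0, hθ i]
      congr 2
      exact (hc i).symm
    obtain ⟨r', hr'⟩ := (res0_eq_zero_iff hπ' _).mp hres
    exact ⟨c, r', by rw [← hr']; ring⟩
  · have hli := b.linearIndependent
    rw [Fintype.linearIndependent_iff] at hli
    apply hli
    rw [← hc]
    refine Finset.sum_congr rfl fun i _ => ?_
    rw [hs]
    congr 1
    exact (hθ i).symm

/-- **Existence of the base change data**, for a finite extension `L / K` with finite residue field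
extension. -/
theorem nonempty_bcData
    (hgen : E' ≤ IntermediateField.adjoin L (⇑(coeffMap φ) '' (E : Set _)))
    (hfinL : @Module.Finite K L _ _ φ.toAlgebra.toModule)
    (hfinRes : @Module.Finite (Res O) (Res O') _ _ (resMap φ hOO').toAlgebra.toModule) :
    ∃ D : BCData K L π π' (gaussVS hπ E hE) (gaussVS hπ' E' hE'),
      D.iR = iR φ hOO' ∧ D.iK = φ ∧ D.iF = iF φ hEE' := by
  obtain ⟨n, ω, hsp, hind⟩ := exists_omega φ hfinL
  obtain ⟨f, θ, hθsp, hθind⟩ := exists_theta φ hOO' hπ' hfinRes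
  exact ⟨bcData φ hOO' hπ hπ' hE hE' hEE' hgen n ω hsp hind f θ hθsp hθind
    (exists_pi_dvd φ hOO' hπ hπ'), rfl, rfl, rfl⟩

end Data

end Fermat.Agent.T1.ModelBC51.Concrete
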