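/-
Programme T1a (S19), brick G2 MODEL-BC (helper51).  PART 8: the number field instance.

`K ≤ L` number fields inside `Qbar`, `A` a valuation subring of `Qbar` over the prime `ℓ`,
`F₀ ⊂ ℚ((q))`.  The hypotheses of `GenericEquiv` (`bcDataG`, `equiv0G`, `equiv1G`, `equiv01G`) for

  `φ = incl hKL : K → L`,  `O = AK A K`,  `O' = AK A L`,  `E = K · F₀`,  `E' = L · F₀`:

`mem_AK_iff_incl` (`hOO'`), `map_mem_baseChange` (`hEE'`), `baseChange_le_adjoin` (`hgen`),
`finite_incl` (`hfinL`), `finite_res` (`hfinRes`).  Typeclass search at these concrete types is very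
slow (several seconds per `Algebra ↥(AK A K) ↥(laurentBaseChange ↥K F₀)`), so the instantiated
definitions are NOT restated here: use

  `GenericEquiv.equiv0G (incl hKL) (mem_AK_iff_incl A hKL) hπ hπ' hE hE' (map_mem_baseChange hKL F₀)
     (baseChange_le_adjoin hKL F₀) (finite_incl hKL) (finite_res A hKL hℓ hA) hK hL`

with `hK : TwoChartModel ↥(AK A K) ↥K ↥(laurentBaseChange ↥K F₀) π t B0 B1 (gaussVS hπ _ hE)` and
`hL : TwoChartModel ↥(AK A L) ↥L ↥(laurentBaseChange ↥L F₀) π' (iF (incl hKL) _ t) B0' B1'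
(gaussVS hπ' _ hE')`.  `exists_bcDataNF` is the one instantiated statement (a smoke test).
-/
import Mathlib
import Fermat.Agent.RED.DESC.NumberFieldDVR27
import Fermat.Agent.RED.DESC.CoeffDescent1
import Fermat.Agent.T1.ModelBC51.Concrete

set_option autoImplicit false
set_option linter.unusedSectionVars false
set_option linter.style.haveILetI false

noncomputable section

namespace Fermat.Agent.T1.ModelBC51.NumField

open HahnSeries ModularCurve IntermediateField TensorProduct
open Fermat.Agent.RED.Interface4 Fermat.Agent.RED.DESC.NumberFieldDVR27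
open Fermat.Agent.RED.DESC.CoeffDescent1 (coeffMap_mem_laurentBaseChange_of_algHom
  coeffMap_coeffEmb_of_algHom)
open Fermat.Agent.RED.CORE.CoreIface24
open Fermat.Agent.RED.PUR.GaussGen8 Fermat.Agent.T1.ModelBC51.Abstract
open Fermat.Agent.T1.ModelBC51.Concrete

variable (A : ValuationSubring Qbar) {K L : IntermediateField ℚ Qbar} (hKL : K ≤ L)
  (F₀ : IntermediateField ℚ (LaurentSeries ℚ))

/-- the inclusion `K → L`. -/
def incl : ↥K →+* ↥L := (IntermediateField.inclusion hKL).toRingHom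

theorem coe_incl (x : ↥K) : ((incl hKL x : ↥L) : Qbar) = (x : Qbar) := rfl

theorem mem_AK_iff_incl (x : ↥K) : x ∈ AK A K ↔ incl hKL x ∈ AK A L :=
  (AK_mono_mem A K hKL x).symm

theorem map_mem_baseChange :
    ∀ x ∈ laurentBaseChange ↥K F₀, coeffMap (incl hKL) x ∈ laurentBaseChange ↥L F₀ :=
  fun _ hx => coeffMap_mem_laurentBaseChange_of_algHom (incl hKL) F₀ hx

theorem baseChange_le_adjoin :
    laurentBaseChange ↥L F₀ ≤
      IntermediateField.adjoin ↥L (⇑(coeffMap (incl hKL)) '' (laurentBaseChange ↥K F₀ : Set _)) := by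
  apply IntermediateField.adjoin.mono
  rintro _ ⟨z, hz, rfl⟩
  exact ⟨coeffEmb ↥K z, coeffEmb_mem_laurentBaseChange ↥K hz,
    coeffMap_coeffEmb_of_algHom (incl hKL) z⟩

theorem finite_incl [FiniteDimensional ℚ L] :
    @Module.Finite ↥K ↥L _ _ (incl hKL).toAlgebra.toModule := by
  letI : Algebra ↥K ↥L := (incl hKL).toAlgebra
  haveI : IsScalarTower ℚ ↥K ↥L := IsScalarTower.of_algebraMap_eq (fun _ => rfl)
  exact Module.Finite.right ℚ ↥K ↥L

theorem finite_res {ℓ : ℕ} (hℓ : ℓ ≠ 0) (hA : A.LiesOverPrime ℓ) [FiniteDimensional ℚ L] :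
    @Module.Finite (Res (AK A K)) (Res (AK A L)) _ _
      (resMap (incl hKL) (mem_AK_iff_incl A hKL)).toAlgebra.toModule := by
  letI : Algebra (Res (AK A K)) (Res (AK A L)) :=
    (resMap (incl hKL) (mem_AK_iff_incl A hKL)).toAlgebra
  haveI : Finite (Res (AK A L)) := finite_residueField_AK A L hℓ hA
  exact Module.Finite.of_finite

section Data

variable {ℓ : ℕ} (hℓ : ℓ ≠ 0) (hA : A.LiesOverPrime ℓ) [FiniteDimensional ℚ L]
  {π : ↥(AK A K)} {π' : ↥(AK A L)} (hπ : IsUnif (AK A K) π) (hπ' : IsUnif (AK A L) π')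
  (hE : laurentBaseChange ↥K F₀ ≤ fracField (AK A K))
  (hE' : laurentBaseChange ↥L F₀ ≤ fracField (AK A L))

include hℓ hA in
/-- the base change data exist for `K ≤ L` (smoke test of the instantiation). -/
theorem exists_bcDataNF :
    ∃ D : BCData ↥K ↥L π π' (gaussVS hπ (laurentBaseChange ↥K F₀) hE)
        (gaussVS hπ' (laurentBaseChange ↥L F₀) hE'),
      D.iR = iR (incl hKL) (mem_AK_iff_incl A hKL) ∧ D.iK = incl hKL ∧
        D.iF = iF (incl hKL) (map_mem_baseChange hKL F₀) :=
  nonempty_bcData (incl hKL) (mem_AK_iff_incl A hKL) hπ hπ' hE hE' (map_mem_baseChange hKL F₀)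
    (baseChange_le_adjoin hKL F₀) (finite_incl hKL) (finite_res A hKL hℓ hA)

end Data

end Fermat.Agent.T1.ModelBC51.NumField
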