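/-
Programme T1a (S19), brick G2 MODEL-BC (helper51).  PART 9: glue between the number field instance
(`NumField.lean`) and the vocabularies of the consumers.

* `inclAK_eq_iR`  : `HubInst98.inclAK A h = Concrete.iR (incl h) _` (so `halg` holds for
  `letI := HubInst98.algAK A h`, and `HubInst98.algAK A h = GenericEquiv.algOO' (incl h) _`);
* `iF_tq`         : the coefficientwise inclusion sends `tq K n e` to `tq L n e`;
* `iF_eq_cLL`     : `Concrete.iF (incl h) _ = Dict59.cLL M h`;
* `nonempty_bcData_AK` : the base change data for `AK A K ⊂ AK A L`, `FK M K ⊂ FK M L`, in the shape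
  asked for by the assembly (helper41).
-/
import Mathlib
import Fermat.Agent.RED.BASE.EtaQuot12
import Fermat.Agent.RED.PUR.GaussBridge10
import Fermat.Agent.T1.Dict59.Iface
import Fermat.Agent.T1.HubInst98.Incl
import Fermat.Agent.T1.ModelBC51.NumField

set_option autoImplicit false
set_option linter.unusedSectionVars false
set_option linter.style.haveILetI false

noncomputable section

namespace Fermat.Agent.T1.ModelBC51.NumFieldGlue

open HahnSeries ModularCurve IntermediateField
open Fermat.Agent.RED.Interface4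
open Fermat.Agent.RED.BASE.EtaQuot12
open Fermat.Agent.RED.PUR.GaussGen8 Fermat.Agent.T1.ModelBC51.Abstract
open Fermat.Agent.T1.ModelBC51.Concrete Fermat.Agent.T1.ModelBC51.NumField

variable (A : ValuationSubring Qbar) {K L : IntermediateField ℚ Qbar} (h : K ≤ L)

/-- `incl h` is the coercion of `IntermediateField.inclusion h`. -/
theorem incl_eq : incl h = (IntermediateField.inclusion h : ↥K →+* ↥L) := rfl

/-- helper98's inclusion `A ∩ K → A ∩ L` is `Concrete.iR`. -/
theorem inclAK_eq_iR :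
    Fermat.Agent.T1.HubInst98.inclAK A h = iR (incl h) (mem_AK_iff_incl A h) := rfl

theorem inclAK_apply (r : ↥(AK A K)) :
    Fermat.Agent.T1.HubInst98.inclAK A h r = iR (incl h) (mem_AK_iff_incl A h) r := rfl

/-- helper98's algebra structure is the generic one. -/
theorem algAK_eq :
    Fermat.Agent.T1.HubInst98.algAK A h = (iR (incl h) (mem_AK_iff_incl A h)).toAlgebra := rfl

/-- the coefficientwise inclusion sends `tq K n e` to `tq L n e`. -/
theorem iF_tq (F₀ : IntermediateField ℚ (LaurentSeries ℚ)) (n e : ℕ) [NeZero n]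
    (hK : tq ↥K n e ∈ laurentBaseChange ↥K F₀) (hL : tq ↥L n e ∈ laurentBaseChange ↥L F₀) :
    iF (incl h) (map_mem_baseChange h F₀) ⟨tq ↥K n e, hK⟩ = ⟨tq ↥L n e, hL⟩ :=
  Subtype.ext (coeffMap_tq (R := ↥K) (incl h) n e)

/-- the coefficientwise inclusion is `Dict59.cLL`. -/
theorem iF_eq_cLL (M : ℕ) :
    iF (incl h) (map_mem_baseChange h (modularFunctionFieldFull M)) =
      Fermat.Agent.T1.Dict59.cLL M h :=
  RingHom.ext fun _ => Subtype.ext rfl

/-- **The base change data for `A ∩ K ⊂ A ∩ L`, `K·F_M ⊂ L·F_M`.** -/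
theorem nonempty_bcData_AK {ℓ : ℕ} (hℓ : ℓ ≠ 0) (hA : A.LiesOverPrime ℓ) (M : ℕ) [NeZero M]
    [FiniteDimensional ℚ L] {π : ↥(AK A K)} {π' : ↥(AK A L)} (hπ : IsUnif (AK A K) π)
    (hπ' : IsUnif (AK A L) π') :
    ∃ (hOO' : ∀ x : ↥K, x ∈ AK A K ↔ (IntermediateField.inclusion h : ↥K →+* ↥L) x ∈ AK A L)
      (hEE' : ∀ x ∈ FK M K,
        coeffMap (IntermediateField.inclusion h : ↥K →+* ↥L) x ∈ FK M L)
      (D : BCData ↥K ↥L π π'
        (gaussVS hπ (FK M K) (Fermat.Agent.RED.PUR.GaussBridge10.FK_le_fracField A K M))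
        (gaussVS hπ' (FK M L) (Fermat.Agent.RED.PUR.GaussBridge10.FK_le_fracField A L M))),
      D.iR = iR (IntermediateField.inclusion h : ↥K →+* ↥L) hOO' ∧
        D.iK = (IntermediateField.inclusion h : ↥K →+* ↥L) ∧
        D.iF = iF (IntermediateField.inclusion h : ↥K →+* ↥L) hEE' ∧
        (∀ r, Fermat.Agent.T1.HubInst98.inclAK A h r = D.iR r) ∧
        D.iF = Fermat.Agent.T1.Dict59.cLL M h := by
  obtain ⟨D, h1, h2, h3⟩ := exists_bcDataNF A h (modularFunctionFieldFull M) hℓ hA hπ hπ'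
    (Fermat.Agent.RED.PUR.GaussBridge10.FK_le_fracField A K M)
    (Fermat.Agent.RED.PUR.GaussBridge10.FK_le_fracField A L M)
  refine ⟨mem_AK_iff_incl A h, map_mem_baseChange h (modularFunctionFieldFull M), D, h1, h2, h3,
    fun r => ?_, ?_⟩
  · rw [h1]; rfl
  · rw [h3]; exact iF_eq_cLL h M

end Fermat.Agent.T1.ModelBC51.NumFieldGlue
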