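/-
Programme T1a (S19) (helper51).  The coordinate `t` of a two-chart model is a transcendental
generator: `t` is transcendental over `K` and `F` is finite over `K(t)`.

* `isGen_of_model` (generic): for `M : TwoChartModel R K F π t B0 B1 Ov`, `t` not a constant and `K`
  algebraically closed in `F`, `X0.FF.IsGen K t`.  Proof: `F = Frac B0`, every element of `B0` is
  integral over `R[t] ⊆ K(t)`, so `K(t) · B0` is a field, equal to `F`; and `B0 ⊆ Σ R[t] e_i`
  (`fin0`), so `F = Σ K(t) e_i`.
-/
import Mathlib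
import Fermat.Agent.X0.FFDefs
import Fermat.Agent.RED.CORE.CoreIface24
import Fermat.Agent.T1.ModelBC51.TraceCoord

set_option autoImplicit false
set_option linter.unusedSectionVars false
set_option linter.style.haveILetI false

noncomputable section

namespace Fermat.Agent.T1.ModelBC51.CoordGen

open Polynomial IntermediateField Fermat.Agent.RED.CORE.CoreIface24
open Fermat.Agent.T1.ModelBC51.TraceCoord

variable {R K F : Type*} [CommRing R] [Field K] [Field F] [Algebra R K] [Algebra K F]
  [Algebra R F] [IsScalarTower R K F]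

/-- polynomial expressions in `t` with coefficients in `R` lie in `K(t)`. -/
theorem aeval_mem_adjoin (t : F) (P : R[X]) : aeval t P ∈ K⟮t⟯ := by
  rw [aeval_eq_sum_range]
  refine sum_mem fun i _ => ?_
  rw [Algebra.smul_def, IsScalarTower.algebraMap_apply R K F]
  exact mul_mem (K⟮t⟯.algebraMap_mem _) (pow_mem (mem_adjoin_simple_self K t) i)

/-- `R[t] ⊆ K(t)`. -/
theorem adjoin_le_adjoin (t : F) {y : F} (hy : y ∈ Algebra.adjoin R {t}) : y ∈ K⟮t⟯ := by
  induction hy using Algebra.adjoin_induction with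
  | mem x hx =>
    rw [Set.mem_singleton_iff] at hx
    subst hx
    exact mem_adjoin_simple_self K _
  | algebraMap r =>
    rw [IsScalarTower.algebraMap_apply R K F]
    exact K⟮t⟯.algebraMap_mem _
  | add x y _ _ hx hy => exact add_mem hx hy
  | mul x y _ _ hx hy => exact mul_mem hx hy

variable {π : R} {t : F} {B0 B1 : Subalgebra R F} {Ov : ValuationSubring F}

/-- elements of `B0` are integral over `K(t)`. -/
theorem isIntegral_adjoin_of_mem (M : TwoChartModel R K F π t B0 B1 Ov) {b : F} (hb : b ∈ B0) :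
    IsIntegral ↥K⟮t⟯ b := by
  refine isIntegral_of_range_le ?_ (M.int0 b hb)
  rintro _ ⟨y, rfl⟩
  exact ⟨⟨(y : F), adjoin_le_adjoin t y.2⟩, rfl⟩

/-- **`F` is finite over `K(t)`.** -/
theorem finiteDimensional_of_model (M : TwoChartModel R K F π t B0 B1 Ov) :
    FiniteDimensional ↥K⟮t⟯ F := by
  classical
  obtain ⟨r, e, heB, hfin⟩ := M.fin0
  -- the `K(t)`-subalgebra generated by `B0`
  set S : Subalgebra ↥K⟮t⟯ F := Algebra.adjoin ↥K⟮t⟯ (B0 : Set F) with hS
  have hBS : ∀ b ∈ B0, b ∈ S := fun b hb => Algebra.subset_adjoin hb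
  -- it is all of `F`
  have htop : ∀ x : F, x ∈ S := by
    intro x
    obtain ⟨a, ha, b, hb, hb0, hxb⟩ := M.frac0 x
    have hbinv : b⁻¹ ∈ S :=
      S.inv_mem_of_algebraic (x := ⟨b, hBS b hb⟩) (isIntegral_adjoin_of_mem M hb).isAlgebraic
    have hx : x = a * b⁻¹ := by
      rw [← hxb, mul_assoc, mul_inv_cancel₀ hb0, mul_one]
    rw [hx]
    exact S.mul_mem (hBS a ha) hbinv
  -- it is spanned by the `e i`
  have hspan : Subalgebra.toSubmodule S ≤ Submodule.span ↥K⟮t⟯ (Set.range e) := by
    rw [hS, Algebra.adjoin_eq_span]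
    refine Submodule.span_le.mpr ?_
    intro x hx
    have hxB : x ∈ B0 := by
      have h1 : Submonoid.closure (B0 : Set F) = B0.toSubmonoid :=
        Submonoid.closure_eq B0.toSubmonoid
      rw [h1] at hx
      exact hx
    obtain ⟨P, hP⟩ := hfin x hxB
    rw [SetLike.mem_coe, hP]
    refine Submodule.sum_mem _ fun i _ => ?_
    have : aeval t (P i) * e i = (⟨aeval t (P i), aeval_mem_adjoin t (P i)⟩ : ↥K⟮t⟯) • e i := by
      rw [Algebra.smul_def]
      rfl
    rw [this]
    exact Submodule.smul_mem _ _ (Submodule.subset_span ⟨i, rfl⟩)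
  refine Module.finite_def.mpr ⟨Finset.univ.image e, ?_⟩
  rw [Finset.coe_image, Finset.coe_univ, Set.image_univ]
  exact top_le_iff.mp fun x _ => hspan (htop x)

/-- **The coordinate of a two-chart model is a transcendental generator.** -/
theorem isGen_of_model (M : TwoChartModel R K F π t B0 B1 Ov)
    (hnc : ∀ c : K, algebraMap K F c ≠ t)
    (hKF : ∀ y : F, IsAlgebraic K y → ∃ c : K, algebraMap K F c = y) :
    Fermat.Agent.X0.FF.IsGen K t where
  transcendental := by
    intro halg
    obtain ⟨c, hc⟩ := hKF t halg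
    exact hnc c hc
  finite := finiteDimensional_of_model M

end Fermat.Agent.T1.ModelBC51.CoordGen
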