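/-
Programme T1a (S19) (helper51).  The coordinate `tK F L = tq L n e` of the explicit model over a
number field `L ∋ ζ_M` is a coordinate in the sense of `Dict59.IsCoord` (transcendental over `L`,
`L·F_M` finite over `L(t)`): `isCoord_tK`, from `CoordGen.isGen_of_model`.
-/
import Mathlib
import Fermat.Agent.T1.Assembly41.ConcreteHub
import Fermat.Agent.T1.Assembly41.FastInst
import Fermat.Agent.T1.Dict59.Iface2
import Fermat.Agent.T1.ModelFacts62.G0Exports
import Fermat.Agent.T1.ModelBC51.CoordGen

set_option autoImplicit false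
set_option linter.unusedSectionVars false
set_option linter.style.haveILetI false

noncomputable section

namespace Fermat.Agent.T1.ModelBC51.CoordConcrete

open Fermat.Agent Fermat.Agent.T1.HubInst98
open Fermat.Agent.RED.Interface4 Fermat.Agent.RED.CORE.CoreIface24
open Fermat.Agent.T1.Assembly41 Fermat.Agent.T1.Assembly41.Concrete
open Fermat.Agent.T1.ModelFacts62.G0Exports Fermat.Agent.T1.ModelBC51.CoordGen
open Fermat.Agent.X0
open scoped Fermat.Agent.T1.Assembly41.FastInst

variable {ℓ : ℕ} [Fact ℓ.Prime] {M : ℕ} [NeZero M] {n e : ℕ} [NeZero n]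
  (F : ModelFamily ℓ M n e)

/-- the coordinate over `L` is a transcendental generator of `L·F_M`. -/
theorem isGen_tK (L : IntermediateField ℚ Qbar) [FiniteDimensional ℚ L] (hζ : zetaK M ∈ L) :
    FF.IsGen ↥L (tK F L) :=
  isGen_of_model (modelK F L hζ) (fun c => not_const_tq (tK F L) n e rfl c)
    (hKF_intermediate (FK M L))

/-- **`Dict59.IsCoord M (tK F L)`.** -/
theorem isCoord_tK (L : IntermediateField ℚ Qbar) [FiniteDimensional ℚ L] (hζ : zetaK M ∈ L) :
    Fermat.Agent.T1.Dict59.IsCoord M (tK F L) :=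
  isGen_tK F L hζ

/-- the same for `L ⊇ K₁ = ℚ(ζ_M)`. -/
theorem isCoord_tK_of_le (L : IntermediateField ℚ Qbar) [FiniteDimensional ℚ L]
    (hle : K1 M ≤ L) : Fermat.Agent.T1.Dict59.IsCoord M (tK F L) :=
  isCoord_tK F L (zetaK_mem_of_K1_le M hle)

end Fermat.Agent.T1.ModelBC51.CoordConcrete
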