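/-
Programme T1a (S19), brick G2 MODEL-BC (helper51).  PART 8: the base change isomorphisms for
`q`-expansion models, GENERIC form (typeclass search at the concrete number field types is very
slow; instantiate these definitions with explicit arguments).

Setting of `Concrete.lean`: `φ : K →+* L` fields, `O = φ⁻¹ O'` valuation subrings with uniformisers
`π`, `π'`, `E ⊂ K((q))`, `E' = L · Φ(E) ⊂ L((q))`, `L / K` finite, residue extension finite.
* `bcDataG` : the `BCData` (with `bcDataG_iR`, `bcDataG_iK`, `bcDataG_iF`);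
* `algOO'` : `Algebra ↥O ↥O'`;
* for `hK : TwoChartModel ↥O K ↥E π t B0 B1 (gaussVS hπ E hE)` and
  `hL : TwoChartModel ↥O' L ↥E' π' (iF φ hEE' t) B0' B1' (gaussVS hπ' E' hE')`:
  `equiv0G : ↥O' ⊗[↥O] ↥B0 ≃ₐ[↥O'] ↥B0'`, `equiv1G`, `equiv01G`, all `r ⊗ b ↦ r • Φ b`.
-/
import Mathlib
import Fermat.Agent.T1.ModelBC51.Concrete
import Fermat.Agent.T1.ModelBC51.ModelEquiv

set_option autoImplicit false
set_option linter.unusedSectionVars false
set_option linter.style.haveILetI false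

noncomputable section

namespace Fermat.Agent.T1.ModelBC51.GenericEquiv

open HahnSeries ModularCurve IntermediateField TensorProduct
open Fermat.Agent.RED.CORE.CoreIface24
open Fermat.Agent.RED.PUR.GaussGen8 Fermat.Agent.T1.ModelBC51.Abstract
open Fermat.Agent.T1.ModelBC51.Concrete

/-- shortcut for the slow instance search `Algebra ↥O ↥E` (this IS the instance found by
`inferInstance`). -/
local instance (priority := high) algOE51 {K : Type*} [Field K] (O : ValuationSubring K)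
    (E : IntermediateField K (LaurentSeries K)) : Algebra ↥O ↥E := Algebra.ofSubsemiring O

variable {K L : Type*} [Field K] [Field L] (φ : K →+* L)
  {O : ValuationSubring K} {O' : ValuationSubring L} (hOO' : ∀ x : K, x ∈ O ↔ φ x ∈ O')
  {π : ↥O} {π' : ↥O'} (hπ : IsUnif O π) (hπ' : IsUnif O' π')
  {E : IntermediateField K (LaurentSeries K)} {E' : IntermediateField L (LaurentSeries L)}
  (hE : E ≤ fracField O) (hE' : E' ≤ fracField O')
  (hEE' : ∀ x ∈ E, coeffMap φ x ∈ E')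
  (hgen : E' ≤ IntermediateField.adjoin L (⇑(coeffMap φ) '' (E : Set (LaurentSeries K))))
  (hfinL : @Module.Finite K L _ _ φ.toAlgebra.toModule)
  (hfinRes : @Module.Finite (Res O) (Res O') _ _ (resMap φ hOO').toAlgebra.toModule)

/-- **the base change data**, chosen once and for all. -/
def bcDataG : BCData K L π π' (gaussVS hπ E hE) (gaussVS hπ' E' hE') :=
  Classical.choose (nonempty_bcData φ hOO' hπ hπ' hE hE' hEE' hgen hfinL hfinRes)

theorem bcDataG_iR :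
    (bcDataG φ hOO' hπ hπ' hE hE' hEE' hgen hfinL hfinRes).iR = iR φ hOO' :=
  (Classical.choose_spec (nonempty_bcData φ hOO' hπ hπ' hE hE' hEE' hgen hfinL hfinRes)).1

theorem bcDataG_iK : (bcDataG φ hOO' hπ hπ' hE hE' hEE' hgen hfinL hfinRes).iK = φ :=
  (Classical.choose_spec (nonempty_bcData φ hOO' hπ hπ' hE hE' hEE' hgen hfinL hfinRes)).2.1

theorem bcDataG_iF :
    (bcDataG φ hOO' hπ hπ' hE hE' hEE' hgen hfinL hfinRes).iF = iF φ hEE' :=
  (Classical.choose_spec (nonempty_bcData φ hOO' hπ hπ' hE hE' hEE' hgen hfinL hfinRes)).2.2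

/-- **`↥O'` as an algebra over `↥O`.** -/
@[reducible] def algOO' : Algebra ↥O ↥O' := (iR φ hOO').toAlgebra

theorem coe_algebraMap_OO' (r : ↥O) :
    letI := algOO' φ hOO'
    ((algebraMap ↥O ↥O' r : ↥O') : L) = φ (r : K) := rfl

theorem halgG (r : ↥O) :
    letI := algOO' φ hOO'
    algebraMap ↥O ↥O' r = (bcDataG φ hOO' hπ hπ' hE hE' hEE' hgen hfinL hfinRes).iR r := by
  rw [bcDataG_iR]
  rfl

section Equivs

variable [CharZero K] {t : ↥E} {B0 B1 : Subalgebra ↥O ↥E} {B0' B1' : Subalgebra ↥O' ↥E'}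
  (hK : TwoChartModel ↥O K ↥E π t B0 B1 (gaussVS hπ E hE))
  (hL : TwoChartModel ↥O' L ↥E' π' (iF φ hEE' t) B0' B1' (gaussVS hπ' E' hE'))

include hL in
theorem hLG : TwoChartModel ↥O' L ↥E' π'
    ((bcDataG φ hOO' hπ hπ' hE hE' hEE' hgen hfinL hfinRes).iF t) B0' B1'
    (gaussVS hπ' E' hE') := by
  rw [bcDataG_iF]
  exact hL

/-- **`O' ⊗[O] B0 ≃ B0'`.** -/
def equiv0G :
    letI := algOO' φ hOO'
    ↥O' ⊗[↥O] ↥B0 ≃ₐ[↥O'] ↥B0' :=
  letI := algOO' φ hOO'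
  ModelEquiv.equiv0 (bcDataG φ hOO' hπ hπ' hE hE' hEE' hgen hfinL hfinRes)
    (halgG φ hOO' hπ hπ' hE hE' hEE' hgen hfinL hfinRes) hK
    (hLG φ hOO' hπ hπ' hE hE' hEE' hgen hfinL hfinRes hL)

/-- **`O' ⊗[O] B1 ≃ B1'`.** -/
def equiv1G :
    letI := algOO' φ hOO'
    ↥O' ⊗[↥O] ↥B1 ≃ₐ[↥O'] ↥B1' :=
  letI := algOO' φ hOO'
  ModelEquiv.equiv1 (bcDataG φ hOO' hπ hπ' hE hE' hEE' hgen hfinL hfinRes)
    (halgG φ hOO' hπ hπ' hE hE' hEE' hgen hfinL hfinRes) hK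
    (hLG φ hOO' hπ hπ' hE hE' hEE' hgen hfinL hfinRes hL)

/-- **`O' ⊗[O] (B0 ⊔ B1) ≃ B0' ⊔ B1'`.** -/
def equiv01G :
    letI := algOO' φ hOO'
    ↥O' ⊗[↥O] ↥(B0 ⊔ B1) ≃ₐ[↥O'] ↥(B0' ⊔ B1') :=
  letI := algOO' φ hOO'
  ModelEquiv.equiv01 (bcDataG φ hOO' hπ hπ' hE hE' hEE' hgen hfinL hfinRes)
    (halgG φ hOO' hπ hπ' hE hE' hEE' hgen hfinL hfinRes) hK
    (hLG φ hOO' hπ hπ' hE hE' hEE' hgen hfinL hfinRes hL)

theorem coe_equiv0G_tmul (r : ↥O') (b : ↥B0) :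
    letI := algOO' φ hOO'
    ((equiv0G φ hOO' hπ hπ' hE hE' hEE' hgen hfinL hfinRes hK hL (r ⊗ₜ[↥O] b) : ↥B0') : ↥E') =
      algebraMap ↥O' ↥E' r * iF φ hEE' (b : ↥E) := by
  letI := algOO' φ hOO'
  show algebraMap ↥O' ↥E' r *
    (bcDataG φ hOO' hπ hπ' hE hE' hEE' hgen hfinL hfinRes).iF (b : ↥E) = _
  rw [bcDataG_iF]

theorem coe_equiv1G_tmul (r : ↥O') (b : ↥B1) :
    letI := algOO' φ hOO'
    ((equiv1G φ hOO' hπ hπ' hE hE' hEE' hgen hfinL hfinRes hK hL (r ⊗ₜ[↥O] b) : ↥B1') : ↥E') =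
      algebraMap ↥O' ↥E' r * iF φ hEE' (b : ↥E) := by
  letI := algOO' φ hOO'
  show algebraMap ↥O' ↥E' r *
    (bcDataG φ hOO' hπ hπ' hE hE' hEE' hgen hfinL hfinRes).iF (b : ↥E) = _
  rw [bcDataG_iF]

theorem coe_equiv01G_tmul (r : ↥O') (b : ↥(B0 ⊔ B1)) :
    letI := algOO' φ hOO'
    ((equiv01G φ hOO' hπ hπ' hE hE' hEE' hgen hfinL hfinRes hK hL (r ⊗ₜ[↥O] b) :
        ↥(B0' ⊔ B1')) : ↥E') =
      algebraMap ↥O' ↥E' r * iF φ hEE' (b : ↥E) := by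
  letI := algOO' φ hOO'
  show algebraMap ↥O' ↥E' r *
    (bcDataG φ hOO' hπ hπ' hE hE' hEE' hgen hfinL hfinRes).iF (b : ↥E) = _
  rw [bcDataG_iF]

/-- compatibility with `B0 ⊆ B0 ⊔ B1`. -/
theorem equiv01G_map_inclusion0 :
    letI := algOO' φ hOO'
    ∀ z : ↥O' ⊗[↥O] ↥B0,
      equiv01G φ hOO' hπ hπ' hE hE' hEE' hgen hfinL hfinRes hK hL
          (Algebra.TensorProduct.map (AlgHom.id ↥O' ↥O')
            (Subalgebra.inclusion (le_sup_left : B0 ≤ B0 ⊔ B1)) z) =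
        Subalgebra.inclusion (le_sup_left : B0' ≤ B0' ⊔ B1')
          (equiv0G φ hOO' hπ hπ' hE hE' hEE' hgen hfinL hfinRes hK hL z) := by
  letI := algOO' φ hOO'
  exact ModelEquiv.equiv01_map_inclusion0 _ _ hK _

/-- compatibility with `B1 ⊆ B0 ⊔ B1`. -/
theorem equiv01G_map_inclusion1 :
    letI := algOO' φ hOO'
    ∀ z : ↥O' ⊗[↥O] ↥B1,
      equiv01G φ hOO' hπ hπ' hE hE' hEE' hgen hfinL hfinRes hK hL
          (Algebra.TensorProduct.map (AlgHom.id ↥O' ↥O')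
            (Subalgebra.inclusion (le_sup_right : B1 ≤ B0 ⊔ B1)) z) =
        Subalgebra.inclusion (le_sup_right : B1' ≤ B0' ⊔ B1')
          (equiv1G φ hOO' hπ hπ' hE hE' hEE' hgen hfinL hfinRes hK hL z) := by
  letI := algOO' φ hOO'
  exact ModelEquiv.equiv01_map_inclusion1 _ _ hK _

include hOO' hπ hπ' hE hE' hgen hfinL hfinRes hK hL in
/-- the underlying modules: `B_j' = O' · Φ(B_j)`. -/
theorem mem_B0'_iff {x : ↥E'} :
    x ∈ B0' ↔ ∃ (N : ℕ) (r : Fin N → ↥O') (c : Fin N → ↥E), (∀ k, c k ∈ B0) ∧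
      x = ∑ k, algebraMap ↥O' ↥E' (r k) * iF φ hEE' (c k) := by
  have h := Model.mem_chart0_iff (bcDataG φ hOO' hπ hπ' hE hE' hEE' hgen hfinL hfinRes) hK
    (hLG φ hOO' hπ hπ' hE hE' hEE' hgen hfinL hfinRes hL) (x := x)
  rw [bcDataG_iF] at h
  exact h

include hOO' hπ hπ' hE hE' hgen hfinL hfinRes hK hL in
theorem mem_B1'_iff {x : ↥E'} :
    x ∈ B1' ↔ ∃ (N : ℕ) (r : Fin N → ↥O') (c : Fin N → ↥E), (∀ k, c k ∈ B1) ∧
      x = ∑ k, algebraMap ↥O' ↥E' (r k) * iF φ hEE' (c k) := by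
  have h := Model.mem_chart1_iff (bcDataG φ hOO' hπ hπ' hE hE' hEE' hgen hfinL hfinRes) hK
    (hLG φ hOO' hπ hπ' hE hE' hEE' hgen hfinL hfinRes hL) (x := x)
  rw [bcDataG_iF] at h
  exact h

end Equivs

end Fermat.Agent.T1.ModelBC51.GenericEquiv
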