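/-
Programme T1a (S19), brick G2 MODEL-BC (helper51).  PART 10: the hub facts at every number field
`L ⊇ K₁ = ℚ(ζ_M)` for the concrete hub `Assembly41.Concrete.c0 F`.

`hubFacts_concrete F L hle : HubRed76.HubFacts (c0 F :) (OL ℓ L)` (with the algebra structure
`HubInst98.algAK (padicPlace ℓ) hle`), from `HubRed76.hubFacts_of_bcData`, the base change data
`NumFieldGlue.nonempty_bcData_AK` between the explicit models over `K₁` and over `L`, and
`G0Exports.not_const_tq`.
-/
import Mathlib
import Fermat.Agent.T1.Assembly41.ConcreteHub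
import Fermat.Agent.T1.Assembly41.FastInst
import Fermat.Agent.T1.HubRed76
import Fermat.Agent.T1.ModelFacts62.G0Exports
import Fermat.Agent.T1.ModelBC51.NumFieldGlue

set_option autoImplicit false
set_option linter.unusedSectionVars false
set_option linter.style.haveILetI false

noncomputable section

namespace Fermat.Agent.T1.ModelBC51.HubFactsConcrete

open Fermat.Agent Fermat.Agent.Jac Fermat.Agent.T1.HubInst98
open Fermat.Agent.RED.Interface4 Fermat.Agent.RED.CORE.CoreIface24
open Fermat.Agent.RED.PUR.GaussGen8 Fermat.Agent.RED.PUR.ChartGeneric22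
open Fermat.Agent.RED.BASE.EtaQuot12
open Fermat.Agent.T1.ModelUnr4.Explicit Fermat.Agent.T1.Coh60
open Fermat.Agent.T1.Assembly41 Fermat.Agent.T1.Assembly41.Concrete
open Fermat.Agent.T1.ModelBC51.Abstract Fermat.Agent.T1.ModelBC51.NumFieldGlue
open Fermat.Agent.T1.ModelFacts62.G0Exports
open Fermat.Agent.X0
open scoped Fermat.Agent.T1.Assembly41.FastInst

attribute [local instance] Coh60.algebra0 Coh60.algebra1 Coh60.isScalarTower0
  Coh60.isScalarTower1

variable {ℓ : ℕ} [Fact ℓ.Prime] {M : ℕ} [NeZero M] {n e : ℕ} [NeZero n]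
  (F : ModelFamily ℓ M n e)

/-- **The hub facts at `O_L`**, for the model chart of the explicit model over `K₁`. -/
theorem hubFacts_mc (L : IntermediateField ℚ Qbar) [FiniteDimensional ℚ L] (hle : K1 M ≤ L) :
    letI := algAK (padicPlace ℓ) hle
    HubRed76.HubFacts (HubRed76.mc (modelK F (K1 M) (zetaK_mem_K1 M))) (OL ℓ L) := by
  letI := algAK (padicPlace ℓ) hle
  have hℓ : ℓ ≠ 0 := (Fact.out : ℓ.Prime).ne_zero
  obtain ⟨hOO', hEE', D, hiR, hiK, hiF, hincl, hcLL⟩ :=
    nonempty_bcData_AK (padicPlace ℓ) hle hℓ (hA ℓ) M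
      (isUnif_AK (hA ℓ) (K1 M) (unif_irreducible ℓ (K1 M)))
      (isUnif_AK (hA ℓ) L (unif_irreducible ℓ L))
  have hζ : zetaK M ∈ L := zetaK_mem_of_K1_le M hle
  have ht : D.iF (tK F (K1 M)) = tK F L := by
    rw [hiF]
    exact iF_tq hle (ModularCurve.modularFunctionFieldFull M) n e (F.htq (K1 M)) (F.htq L)
  have hL := modelK F L hζ
  rw [← ht] at hL
  exact HubRed76.hubFacts_of_bcData (modelK F (K1 M) (zetaK_mem_K1 M)) D (fun r => hincl r) hL
    (fun a => by
      rw [ht]
      exact not_const_tq (tK F L) n e rfl a)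

/-- **The hub facts at `O_L`**, for the concrete hub `c0 F`. -/
theorem hubFacts_concrete (L : IntermediateField ℚ Qbar) [FiniteDimensional ℚ L]
    (hle : K1 M ≤ L) :
    letI := algAK (padicPlace ℓ) hle
    HubRed76.HubFacts (c0 F :) (OL ℓ L) :=
  hubFacts_mc F L hle

end Fermat.Agent.T1.ModelBC51.HubFactsConcrete
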